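/-
S41 volunteer leaf (R4), INPUT SIDE (helper20 #2488 (3)).

A normalised eigenform `f` of level `N` (frozen `CuspForm.IsNormalizedEigenform`) is an eigenvector
of the full Hecke algebra `heckeAlgebra N 2 ∅` with eigenvalue `qCoeff f ℓ` for `T_ℓ` / `U_ℓ`.
Hence a ring hom `θ : heckeAlgebra N 2 ∅ →+* ℤ̄` with `(θ T_ℓ : ℂ) = qCoeff f ℓ`, and for a maximal
ideal `𝔪` of `ℤ̄` the maximal ideal `nn₀ := 𝔪.comap θ` of the Hecke algebra.
-/
import Mathlib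
import Fermat.Prelude.Def_FLTPrelim_Modularity
import Fermat.Prelude.Def_CuspForm_HeckeAlgebra
import Fermat.Agent.S49.QExp
import Fermat.Agent.S22

set_option autoImplicit false

namespace Fermat.Agent.S41.R4.Input

open CuspForm CongruenceSubgroup ModularFormClass Fermat.Agent.S49

variable {N : ℕ} [NeZero N]

/-- Coefficient relation at a prime not dividing the level. -/
theorem qCoeff_mul_prime_of_not_dvd {f : CuspForm (Gamma0 N) 2} (hf : f.IsNormalizedEigenform)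
    {ℓ : ℕ} (hℓ : ℓ.Prime) (hℓN : ¬ ℓ ∣ N) (n : ℕ) :
    qCoeff ⇑f (n * ℓ) + (if ℓ ∣ n then (ℓ : ℂ) * qCoeff ⇑f (n / ℓ) else 0) =
      qCoeff ⇑f ℓ * qCoeff ⇑f n := by
  rcases Nat.eq_zero_or_pos n with rfl | hn
  · simp [qCoeff_zero_index]
  obtain ⟨r, m, hm, rfl⟩ := Nat.exists_eq_pow_mul_and_not_dvd hn.ne' ℓ hℓ.ne_one
  have hcop : ∀ k : ℕ, (ℓ ^ k).Coprime m := fun k =>
    Nat.Coprime.pow_left k ((Nat.Prime.coprime_iff_not_dvd hℓ).2 hm)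
  cases r with
  | zero =>
    have hnd : ¬ ℓ ∣ ℓ ^ 0 * m := by simpa using hm
    rw [if_neg hnd, add_zero, pow_zero, one_mul, mul_comm m ℓ,
      hf.qCoeff_mul_of_coprime ℓ m ((Nat.Prime.coprime_iff_not_dvd hℓ).2 hm)]
  | succ r =>
    have hd : ℓ ∣ ℓ ^ (r + 1) * m := Dvd.dvd.mul_right (dvd_pow_self ℓ (Nat.succ_ne_zero r)) m
    have hdiv : ℓ ^ (r + 1) * m / ℓ = ℓ ^ r * m := by
      rw [pow_succ, mul_comm (ℓ ^ r) ℓ, mul_assoc, Nat.mul_div_cancel_left _ hℓ.pos]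
    have hmul : ℓ ^ (r + 1) * m * ℓ = ℓ ^ (r + 2) * m := by ring
    rw [if_pos hd, hdiv, hmul, hf.qCoeff_mul_of_coprime _ _ (hcop (r + 2)),
      hf.qCoeff_mul_of_coprime _ _ (hcop (r + 1)), hf.qCoeff_mul_of_coprime _ _ (hcop r),
      hf.qCoeff_prime_pow_of_not_dvd ℓ r hℓ hℓN]
    ring

/-- Coefficient relation at a prime dividing the level. -/
theorem qCoeff_mul_prime_of_dvd {f : CuspForm (Gamma0 N) 2} (hf : f.IsNormalizedEigenform)
    {ℓ : ℕ} (hℓ : ℓ.Prime) (hℓN : ℓ ∣ N) (n : ℕ) :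
    qCoeff ⇑f (n * ℓ) = qCoeff ⇑f ℓ * qCoeff ⇑f n := by
  rcases Nat.eq_zero_or_pos n with rfl | hn
  · simp [qCoeff_zero_index]
  obtain ⟨r, m, hm, rfl⟩ := Nat.exists_eq_pow_mul_and_not_dvd hn.ne' ℓ hℓ.ne_one
  have hcop : ∀ k : ℕ, (ℓ ^ k).Coprime m := fun k =>
    Nat.Coprime.pow_left k ((Nat.Prime.coprime_iff_not_dvd hℓ).2 hm)
  cases r with
  | zero =>
    rw [pow_zero, one_mul, mul_comm m ℓ,
      hf.qCoeff_mul_of_coprime ℓ m ((Nat.Prime.coprime_iff_not_dvd hℓ).2 hm)]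
  | succ r =>
    have hmul : ℓ ^ (r + 1) * m * ℓ = ℓ ^ (r + 2) * m := by ring
    rw [hmul, hf.qCoeff_mul_of_coprime _ _ (hcop (r + 2)),
      hf.qCoeff_mul_of_coprime _ _ (hcop (r + 1)), hf.qCoeff_prime_pow_of_dvd ℓ r hℓ hℓN]
    ring

/-- A normalised eigenform is a `T_ℓ`-eigenvector with eigenvalue `a_ℓ`. -/
theorem heckeTLin_eq_smul {f : CuspForm (Gamma0 N) 2} (hf : f.IsNormalizedEigenform)
    {ℓ : ℕ} (hℓ : ℓ.Prime) (hℓN : ¬ ℓ ∣ N) :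
    heckeTLin 2 hℓ hℓN f = qCoeff ⇑f ℓ • f := by
  rw [← sub_eq_zero]
  apply eq_zero_of_forall_qCoeff
  intro n
  rw [qCoeff_sub, qCoeff_heckeTLin, qCoeff_smul, ← qCoeff_mul_prime_of_not_dvd hf hℓ hℓN n]
  have h1 : ((2 : ℤ) - 1) = 1 := by norm_num
  rw [h1, zpow_one, sub_self]

/-- A normalised eigenform is a `U_ℓ`-eigenvector with eigenvalue `a_ℓ`. -/
theorem heckeULin_eq_smul {f : CuspForm (Gamma0 N) 2} (hf : f.IsNormalizedEigenform)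
    {ℓ : ℕ} (hℓ : ℓ.Prime) (hℓN : ℓ ∣ N) :
    heckeULin 2 hℓN f = qCoeff ⇑f ℓ • f := by
  rw [← sub_eq_zero]
  apply eq_zero_of_forall_qCoeff
  intro n
  rw [qCoeff_sub, qCoeff_heckeULin hℓ hℓN, qCoeff_smul, qCoeff_mul_prime_of_dvd hf hℓ hℓN n,
    sub_self]

theorem ne_zero_of_isNormalizedEigenform {f : CuspForm (Gamma0 N) 2}
    (hf : f.IsNormalizedEigenform) : f ≠ 0 := by
  rintro rfl
  have h1 := hf.qCoeff_one
  have h0 : qCoeff ⇑(0 : CuspForm (Gamma0 N) 2) 1 = 0 := by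
    have := qCoeff_smul (0 : ℂ) (0 : CuspForm (Gamma0 N) 2) 1
    rw [zero_smul, zero_mul] at this
    exact this
  rw [h0] at h1
  exact zero_ne_one h1

/-- Every element of the Hecke algebra acts on a normalised eigenform by a scalar. -/
theorem exists_smul_of_mem_heckeAlgebra {f : CuspForm (Gamma0 N) 2} (hf : f.IsNormalizedEigenform)
    (t : heckeAlgebra N 2 (∅ : Set ℕ)) :
    ∃ c : ℂ, (t : Module.End ℂ (CuspForm (Gamma0 N) 2)) f = c • f := by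
  obtain ⟨t, ht⟩ := t
  show ∃ c : ℂ, t f = c • f
  induction ht using Algebra.adjoin_induction with
  | mem x hx =>
    rcases hx with ⟨ℓ, hℓ, hℓN, -, rfl⟩ | ⟨q, hqN, hq, -, rfl⟩
    · exact ⟨_, heckeTLin_eq_smul hf hℓ hℓN⟩
    · exact ⟨_, heckeULin_eq_smul hf hq hqN⟩
  | algebraMap r =>
    refine ⟨(r : ℂ), ?_⟩
    rw [Algebra.algebraMap_eq_smul_one, LinearMap.smul_apply, Module.End.one_apply]
    exact (Int.cast_smul_eq_zsmul ℂ r f).symm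
  | add x y _ _ hx hy =>
    obtain ⟨c, hc⟩ := hx
    obtain ⟨d, hd⟩ := hy
    exact ⟨c + d, by rw [LinearMap.add_apply, hc, hd, add_smul]⟩
  | mul x y _ _ hx hy =>
    obtain ⟨c, hc⟩ := hx
    obtain ⟨d, hd⟩ := hy
    exact ⟨d * c, by rw [Module.End.mul_apply, hd, map_smul, hc, smul_smul]⟩

/-- The eigencharacter of a normalised eigenform. -/
theorem exists_eigenCharacter {f : CuspForm (Gamma0 N) 2} (hf : f.IsNormalizedEigenform) :
    ∃ χ : heckeAlgebra N 2 (∅ : Set ℕ) →+* ℂ,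
      (∀ t : heckeAlgebra N 2 (∅ : Set ℕ),
        (t : Module.End ℂ (CuspForm (Gamma0 N) 2)) f = χ t • f) ∧
      (∀ (ℓ : ℕ) (hℓ : ℓ.Prime) (hℓN : ¬ ℓ ∣ N),
        χ (heckeAlgebra.T hℓ hℓN (Set.notMem_empty ℓ)) = qCoeff ⇑f ℓ) ∧
      (∀ (ℓ : ℕ) (hℓ : ℓ.Prime) (hℓN : ℓ ∣ N),
        χ (heckeAlgebra.U hℓ hℓN (Set.notMem_empty ℓ)) = qCoeff ⇑f ℓ) := by
  have hf0 := ne_zero_of_isNormalizedEigenform hf
  choose χ hχ using exists_smul_of_mem_heckeAlgebra hf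
  have hinj : ∀ c c' : ℂ, c • f = c' • f → c = c' := fun c c' h =>
    smul_left_injective ℂ hf0 h
  let χhom : heckeAlgebra N 2 (∅ : Set ℕ) →+* ℂ :=
    { toFun := χ
      map_one' := by
        apply hinj
        rw [← hχ 1, OneMemClass.coe_one, Module.End.one_apply, one_smul]
      map_mul' := by
        intro s t
        apply hinj
        rw [← hχ (s * t), MulMemClass.coe_mul, Module.End.mul_apply, hχ t, map_smul, hχ s,
          smul_smul, mul_comm]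
      map_zero' := by
        apply hinj
        rw [← hχ 0, ZeroMemClass.coe_zero, LinearMap.zero_apply, zero_smul]
      map_add' := by
        intro s t
        apply hinj
        rw [← hχ (s + t), AddMemClass.coe_add, LinearMap.add_apply, hχ s, hχ t, add_smul] }
  refine ⟨χhom, hχ, ?_, ?_⟩
  · intro ℓ hℓ hℓN
    apply hinj
    show χ _ • f = _
    rw [← hχ, heckeAlgebra.coe_T, heckeTLin_eq_smul hf hℓ hℓN]
  · intro ℓ hℓ hℓN
    apply hinj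
    show χ _ • f = _
    rw [← hχ, heckeAlgebra.coe_U, heckeULin_eq_smul hf hℓ hℓN]

/-- The eigencharacter with values in the algebraic integers. -/
theorem exists_integral_eigenCharacter {f : CuspForm (Gamma0 N) 2}
    (hf : f.IsNormalizedEigenform) :
    ∃ θ : heckeAlgebra N 2 (∅ : Set ℕ) →+* integralClosure ℤ ℂ,
      (∀ t : heckeAlgebra N 2 (∅ : Set ℕ),
        (t : Module.End ℂ (CuspForm (Gamma0 N) 2)) f = (θ t : ℂ) • f) ∧
      (∀ (ℓ : ℕ) (hℓ : ℓ.Prime) (hℓN : ¬ ℓ ∣ N),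
        (θ (heckeAlgebra.T hℓ hℓN (Set.notMem_empty ℓ)) : ℂ) = qCoeff ⇑f ℓ) ∧
      (∀ (ℓ : ℕ) (hℓ : ℓ.Prime) (hℓN : ℓ ∣ N),
        (θ (heckeAlgebra.U hℓ hℓN (Set.notMem_empty ℓ)) : ℂ) = qCoeff ⇑f ℓ) := by
  obtain ⟨χ, hχ, hT, hU⟩ := exists_eigenCharacter hf
  haveI : Module.Finite ℤ (heckeAlgebra N 2 (∅ : Set ℕ)) := Fermat.Agent.S22.result N 2 ∅
  haveI : Algebra.IsIntegral ℤ (heckeAlgebra N 2 (∅ : Set ℕ)) := Algebra.IsIntegral.of_finite ℤ _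
  have hint : ∀ t : heckeAlgebra N 2 (∅ : Set ℕ), χ t ∈ integralClosure ℤ ℂ := fun t =>
    map_isIntegral_int χ (Algebra.IsIntegral.isIntegral t)
  exact ⟨χ.codRestrict (integralClosure ℤ ℂ) hint, hχ, hT, hU⟩

/-- **Input side.**  The maximal ideal of the level-`N` Hecke algebra attached to `(f, 𝔪)`. -/
theorem exists_maximal_of_eigenform {f : CuspForm (Gamma0 N) 2} (hf : f.IsNormalizedEigenform)
    (𝔪 : Ideal (integralClosure ℤ ℂ)) [𝔪.IsMaximal] :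
    ∃ (θ : heckeAlgebra N 2 (∅ : Set ℕ) →+* integralClosure ℤ ℂ)
      (nn₀ : Ideal (heckeAlgebra N 2 (∅ : Set ℕ))),
      nn₀.IsMaximal ∧ nn₀ = 𝔪.comap θ ∧
      (∀ t : heckeAlgebra N 2 (∅ : Set ℕ),
        (t : Module.End ℂ (CuspForm (Gamma0 N) 2)) f = (θ t : ℂ) • f) ∧
      (∀ (ℓ : ℕ) (hℓ : ℓ.Prime) (hℓN : ¬ ℓ ∣ N),
        (θ (heckeAlgebra.T hℓ hℓN (Set.notMem_empty ℓ)) : ℂ) = qCoeff ⇑f ℓ) ∧
      (∀ (ℓ : ℕ) (hℓ : ℓ.Prime) (hℓN : ℓ ∣ N),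
        (θ (heckeAlgebra.U hℓ hℓN (Set.notMem_empty ℓ)) : ℂ) = qCoeff ⇑f ℓ) := by
  obtain ⟨θ, hθ, hT, hU⟩ := exists_integral_eigenCharacter hf
  haveI : Module.Finite ℤ (heckeAlgebra N 2 (∅ : Set ℕ)) := Fermat.Agent.S22.result N 2 ∅
  haveI : Algebra.IsIntegral ℤ (heckeAlgebra N 2 (∅ : Set ℕ)) := Algebra.IsIntegral.of_finite ℤ _
  have hθint : θ.IsIntegral := by
    intro z
    have hz : IsIntegral ℤ z := Algebra.IsIntegral.isIntegral z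
    letI : Algebra (heckeAlgebra N 2 (∅ : Set ℕ)) (integralClosure ℤ ℂ) := θ.toAlgebra
    exact hz.tower_top
  exact ⟨θ, 𝔪.comap θ, Ideal.isMaximal_comap_of_isIntegral_of_isMaximal' θ hθint 𝔪, rfl,
    hθ, hT, hU⟩

end Fermat.Agent.S41.R4.Input
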