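/-
S41 volunteer leaf (R4): the ANEMIC BRIDGE, abstract part (Mathlib only).

`TT` a commutative ring integral over `ℤ` (the full Hecke algebra), `V` a `TT`-module, `A` an ideal
of `TT`, `gens` a set of elements of `TT` (`p` and the `T_ℓ - a_ℓ`), `Y` an additive subgroup of `V`
which is only assumed stable under `gens` (NOT under all of `TT`), killed by `A`, and not
`gens`-divisible: some `x ∈ Y` is not a sum of elements `s • y`, `s ∈ gens`, `y ∈ Y`.  Then there is a
maximal ideal `nn` of `TT` containing `A` and `gens`.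

Proof: `Y` is a module over the subalgebra `𝕋' = ℤ[gens]`; `1 ∉ Ann + (gens)` there, so there is a
maximal ideal of `𝕋'` above both; lying over for the integral extension `𝕋'/(𝕋' ∩ A) ⊆ TT/A`.
-/
import Mathlib

set_option autoImplicit false

namespace Fermat.Agent.S41.R4.AnemicBridge

/-- Lying over, in the form needed: `f : R' → TT` with `TT` integral over `ℤ`, `A` an ideal of `TT`,
`I'` an ideal of `R'` with `f⁻¹ A + I' ≠ ⊤`.  Then some maximal ideal of `TT` contains `A` and
`f I'`. -/
theorem exists_maximal_of_comap_sup_ne_top {R' TT : Type*} [CommRing R'] [CommRing TT]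
    [Algebra.IsIntegral ℤ TT] (f : R' →+* TT) (A : Ideal TT) (I' : Ideal R')
    (hne : A.comap f ⊔ I' ≠ ⊤) :
    ∃ nn : Ideal TT, nn.IsMaximal ∧ A ≤ nn ∧ I'.map f ≤ nn := by
  obtain ⟨m', hm', hle⟩ := Ideal.exists_le_maximal _ hne
  let g : R' →+* TT ⧸ A := (Ideal.Quotient.mk A).comp f
  let _ : Algebra R' (TT ⧸ A) := g.toAlgebra
  have hmap : algebraMap R' (TT ⧸ A) = g := rfl
  have : Algebra.IsIntegral R' (TT ⧸ A) := by
    constructor
    intro z
    obtain ⟨t, rfl⟩ := Ideal.Quotient.mk_surjective z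
    have ht : IsIntegral ℤ t := Algebra.IsIntegral.isIntegral t
    have hz : IsIntegral ℤ (Ideal.Quotient.mk A t) := map_isIntegral_int (Ideal.Quotient.mk A) ht
    exact hz.tower_top
  have hker : RingHom.ker (algebraMap R' (TT ⧸ A)) ≤ m' := by
    intro t ht
    apply hle
    apply Ideal.mem_sup_left
    rw [RingHom.mem_ker, hmap] at ht
    rw [Ideal.mem_comap]
    exact Ideal.Quotient.eq_zero_iff_mem.1 ht
  obtain ⟨Q, hQmax, hQ⟩ := Ideal.exists_ideal_over_maximal_of_isIntegral (S := TT ⧸ A) m' hker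
  refine ⟨Q.comap (Ideal.Quotient.mk A), ?_, ?_, ?_⟩
  · exact Ideal.comap_isMaximal_of_surjective _ Ideal.Quotient.mk_surjective
  · intro t ht
    rw [Ideal.mem_comap, Ideal.Quotient.eq_zero_iff_mem.2 ht]
    exact Q.zero_mem
  · rw [Ideal.map_le_iff_le_comap]
    intro i hi
    have h1 : i ∈ m' := hle (Ideal.mem_sup_right hi)
    rw [← hQ] at h1
    exact h1

variable {TT : Type*} [CommRing TT] {V : Type*} [AddCommGroup V] [Module TT V]

/-- The set of `gens`-multiples of elements of `Y`. -/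
def divSet (gens : Set TT) (Y : AddSubgroup V) : Set V :=
  {z | ∃ s ∈ gens, ∃ y ∈ Y, z = s • y}

/-- If `Y` is stable under `gens` then it is stable under `ℤ[gens]`. -/
theorem smul_mem_of_mem_adjoin {gens : Set TT} {Y : AddSubgroup V}
    (hY : ∀ s ∈ gens, ∀ y ∈ Y, s • y ∈ Y) {t : TT} (ht : t ∈ Algebra.adjoin ℤ gens) :
    ∀ y ∈ Y, t • y ∈ Y := by
  induction ht using Algebra.adjoin_induction with
  | mem s hs => exact hY s hs
  | algebraMap n =>
    intro y hy
    rw [Algebra.algebraMap_eq_smul_one, smul_assoc, one_smul]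
    exact Y.zsmul_mem hy n
  | add s t _ _ hs ht =>
    intro y hy
    rw [add_smul]
    exact Y.add_mem (hs y hy) (ht y hy)
  | mul s t _ _ hs ht =>
    intro y hy
    rw [mul_smul]
    exact hs _ (ht y hy)

/-- **Anemic bridge**: a `gens`-stable, `A`-killed, non-`gens`-divisible subgroup gives a maximal
ideal of the big ring containing `A` and `gens`. -/
theorem exists_maximal_of_addSubgroup [Algebra.IsIntegral ℤ TT] (A : Ideal TT) (gens : Set TT)
    (Y : AddSubgroup V) (hA : ∀ t ∈ A, ∀ y ∈ Y, t • y = 0)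
    (hY : ∀ s ∈ gens, ∀ y ∈ Y, s • y ∈ Y)
    (hne : ∃ x ∈ Y, x ∉ AddSubgroup.closure (divSet gens Y)) :
    ∃ nn : Ideal TT, nn.IsMaximal ∧ A ≤ nn ∧ gens ⊆ nn := by
  let R' : Subalgebra ℤ TT := Algebra.adjoin ℤ gens
  let f : R' →+* TT := R'.val.toRingHom
  have hf : ∀ r : R', f r = (r : TT) := fun _ => rfl
  let I' : Ideal R' := Ideal.span {s : R' | (s : TT) ∈ gens}
  -- multiples by elements of `I'` land in the closure of `divSet`
  have hD : ∀ i ∈ I', ∀ y ∈ Y, (i : TT) • y ∈ AddSubgroup.closure (divSet gens Y) := by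
    intro i hi
    induction hi using Submodule.span_induction with
    | mem s hs =>
      intro y hy
      exact AddSubgroup.subset_closure ⟨(s : TT), hs, y, hy, rfl⟩
    | zero =>
      intro y _
      rw [ZeroMemClass.coe_zero, zero_smul]
      exact AddSubgroup.zero_mem _
    | add s t _ _ hs ht =>
      intro y hy
      rw [AddMemClass.coe_add, add_smul]
      exact AddSubgroup.add_mem _ (hs y hy) (ht y hy)
    | smul r s _ hs =>
      intro y hy
      have h1 : ((r • s : R') : TT) • y = (s : TT) • ((r : TT) • y) := by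
        rw [smul_eq_mul, MulMemClass.coe_mul, mul_comm, mul_smul]
      rw [h1]
      exact hs _ (smul_mem_of_mem_adjoin hY r.2 y hy)
  have hne' : A.comap f ⊔ I' ≠ ⊤ := by
    intro htop
    obtain ⟨x, hxY, hx⟩ := hne
    apply hx
    have h1 : (1 : R') ∈ A.comap f ⊔ I' := by rw [htop]; trivial
    obtain ⟨α, hα, i, hi, hαi⟩ := Submodule.mem_sup.1 h1
    have h2 : x = (α : TT) • x + (i : TT) • x := by
      rw [← add_smul, ← AddMemClass.coe_add, hαi, OneMemClass.coe_one, one_smul]
    have h3 : (α : TT) • x = 0 := hA _ (by simpa [Ideal.mem_comap, hf] using hα) x hxY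
    rw [h2, h3, zero_add]
    exact hD i hi x hxY
  obtain ⟨nn, hmax, hAnn, hI⟩ := exists_maximal_of_comap_sup_ne_top f A I' hne'
  refine ⟨nn, hmax, hAnn, ?_⟩
  intro s hs
  have hs' : s ∈ R' := Algebra.subset_adjoin hs
  have h1 : (⟨s, hs'⟩ : R') ∈ I' := Ideal.subset_span hs
  exact hI (Ideal.mem_map_of_mem f h1)

end Fermat.Agent.S41.R4.AnemicBridge
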