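/-
S41 volunteer leaf (R4): the CONCRETE BRIDGE ("comparison with forms" on the new side).

Input: an additive subgroup `X` of `Hom(Γ₀(M), ℤ)` (`M = N * q'`), consisting of parabolic
homomorphisms, stable under the S16 coset operators `T_ℓ` for the good primes `ℓ ∤ M`, `ℓ ≠ p`
ONLY (no stability under `U_ℓ`, `T_p`, bad `T_ℓ` is asked), on which `U_q ^ 2 = 1`, and which is
not divisible by `(p, T_ℓ - a_ℓ)`: some `φ ∈ X` is not a sum of elements `p • χ`,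
`T_ℓ χ - a_ℓ • χ` (`χ ∈ X`).

Output: the literal frozen conclusion of S41.

Proof: Eichler–Shimura (`S21.result`) transports `X` to an additive subgroup `Y` of
`S₂(Γ₀(M)) × S₂(Γ₀(M))`, Hecke-equivariantly (`S16/PeriodHeckePair`); `Y` lies in
`ker (U_q ^ 2 - 1) ^ 2`; the anemic bridge (lying over) gives a maximal ideal of the full Hecke
algebra, and the extraction lemma produces the eigenform.
-/
import Mathlib
import Fermat.Agent.S41.R4.Bridge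
import Fermat.Agent.S41.R4.AnemicBridge
import Fermat.Agent.S16.PeriodHeckePair
import Fermat.Agent.S21

set_option autoImplicit false

namespace Fermat.Agent.S41.R4.Lattice

open CuspForm CongruenceSubgroup ModularFormClass ModularCurve ModularCurve.Period
open Fermat.Agent.S16.HeckeHom Fermat.Agent.S16.PeriodHeckePair
open Fermat.Agent.S41.R4.Extraction Fermat.Agent.S41.R4.Bridge Fermat.Agent.S41.R4.AnemicBridge
open scoped MatrixGroups

variable {M : ℕ}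

/-- `ℤ`-valued homomorphisms viewed as `ℂ`-valued ones. -/
def castHom : (Additive (Gamma0 M) →+ ℤ) →+ (Additive (Gamma0 M) →+ ℂ) where
  toFun φ := (Int.castAddHom ℂ).comp φ
  map_zero' := by ext; simp
  map_add' φ ψ := by ext; simp

theorem castHom_apply (φ : Additive (Gamma0 M) →+ ℤ) (γ : Additive (Gamma0 M)) :
    castHom φ γ = ((φ γ : ℤ) : ℂ) := rfl

theorem castHom_injective : Function.Injective (castHom (M := M)) := by
  intro φ ψ h
  refine AddMonoidHom.ext fun γ => ?_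
  have h1 := DFunLike.congr_fun h γ
  rw [castHom_apply, castHom_apply] at h1
  exact_mod_cast h1

theorem heckeHom_castHom {I : Type} [Fintype I] [DecidableEq I] (C : CosetSystem (Gamma0 M) I)
    (φ : Additive (Gamma0 M) →+ ℤ) : C.heckeHom (castHom φ) = castHom (C.heckeHom φ) :=
  C.heckeHom_comp (Int.castAddHom ℂ) φ

/-- The coset operator `T_ℓ` on `Hom(Γ₀(M), A)`, with the primality as an explicit argument. -/
noncomputable def cT {A : Type*} [AddCommGroup A] {ℓ : ℕ} (hℓ : ℓ.Prime) (hℓM : ¬ ℓ ∣ M)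
    (φ : Additive (Gamma0 M) →+ A) : Additive (Gamma0 M) →+ A :=
  (@cosetT M ℓ ⟨hℓ⟩ hℓM).heckeHom φ

/-- The coset operator `U_q` on `Hom(Γ₀(M), A)`, with the primality as an explicit argument. -/
noncomputable def cU {A : Type*} [AddCommGroup A] {q : ℕ} (hq : q.Prime) (hqM : q ∣ M)
    (φ : Additive (Gamma0 M) →+ A) : Additive (Gamma0 M) →+ A :=
  (@cosetU M q ⟨hq⟩ hqM).heckeHom φ

theorem cT_eq {A : Type*} [AddCommGroup A] {ℓ : ℕ} [hℓ : Fact ℓ.Prime] (hℓM : ¬ ℓ ∣ M)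
    (φ : Additive (Gamma0 M) →+ A) : cT hℓ.out hℓM φ = (cosetT M ℓ hℓM).heckeHom φ := rfl

theorem cU_eq {A : Type*} [AddCommGroup A] {q : ℕ} [hq : Fact q.Prime] (hqM : q ∣ M)
    (φ : Additive (Gamma0 M) →+ A) : cU hq.out hqM φ = (cosetU M q hqM).heckeHom φ := rfl

/-- The set of `(p, T_ℓ - a_ℓ)`-multiples of elements of `X`. -/
def congrSet (p : ℕ) (good : ℕ → Prop) (a : ℕ → ℤ) (X : AddSubgroup (Additive (Gamma0 M) →+ ℤ)) :
    Set (Additive (Gamma0 M) →+ ℤ) :=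
  {ψ | ∃ χ ∈ X, ψ = (p : ℤ) • χ} ∪
    {ψ | ∃ (ℓ : ℕ) (hℓ : ℓ.Prime) (hℓM : ¬ ℓ ∣ M), good ℓ ∧ ℓ ≠ p ∧
      ∃ χ ∈ X, ψ = cT hℓ hℓM χ - a ℓ • χ}

variable [NeZero M]

theorem periodHomPair_smul_T {ℓ : ℕ} (hℓ : ℓ.Prime) (hℓM : ¬ ℓ ∣ M)
    (y : CuspForm (Gamma0 M) 2 × CuspForm (Gamma0 M) 2) :
    periodHomPair M ((heckeAlgebra.T hℓ hℓM (Set.notMem_empty ℓ) :
      heckeAlgebra M 2 (∅ : Set ℕ)) • y) = cT hℓ hℓM (periodHomPair M y) := by
  obtain ⟨f, g⟩ := y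
  have : Fact ℓ.Prime := ⟨hℓ⟩
  exact periodHomPair_heckeT M ℓ hℓM f g

theorem periodHomPair_smul_U {q : ℕ} (hq : q.Prime) (hqM : q ∣ M)
    (y : CuspForm (Gamma0 M) 2 × CuspForm (Gamma0 M) 2) :
    periodHomPair M ((heckeAlgebra.U hq hqM (Set.notMem_empty q) :
      heckeAlgebra M 2 (∅ : Set ℕ)) • y) = cU hq hqM (periodHomPair M y) := by
  obtain ⟨f, g⟩ := y
  have : Fact q.Prime := ⟨hq⟩
  exact periodHomPair_heckeU M q hqM f g

/-- The transport of `X` to pairs of cusp forms. -/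
noncomputable def pairs (X : AddSubgroup (Additive (Gamma0 M) →+ ℤ)) :
    AddSubgroup (CuspForm (Gamma0 M) 2 × CuspForm (Gamma0 M) 2) :=
  (X.map castHom).comap (periodHomPair M).toAddMonoidHom

omit [NeZero M] in
theorem mem_pairs (X : AddSubgroup (Additive (Gamma0 M) →+ ℤ))
    (y : CuspForm (Gamma0 M) 2 × CuspForm (Gamma0 M) 2) :
    y ∈ pairs X ↔ ∃ φ ∈ X, castHom φ = periodHomPair M y := by
  rw [pairs, AddSubgroup.mem_comap, AddSubgroup.mem_map]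
  rfl

/-- Every parabolic `ℤ`-valued homomorphism is the period of a pair (Eichler–Shimura). -/
theorem exists_pair_of_isParabolicHom {φ : Additive (Gamma0 M) →+ ℤ}
    (hφ : IsParabolicHom (Gamma0 M) φ) :
    ∃ y : CuspForm (Gamma0 M) 2 × CuspForm (Gamma0 M) 2, castHom φ = periodHomPair M y := by
  have h1 : castHom φ ∈ parabolicHoms ℂ (Gamma0 M) ℂ := by
    rw [mem_parabolicHoms_iff]
    intro γ hγ
    rw [castHom_apply, hφ γ hγ, Int.cast_zero]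
  rw [← (Fermat.Agent.S21.result M).2] at h1
  obtain ⟨y, hy⟩ := h1
  exact ⟨y, hy.symm⟩

/-- The generators `p`, `T_ℓ - a_ℓ` (good `ℓ ∤ M`, `ℓ ≠ p`) of the congruence ideal, inside the full
Hecke algebra. -/
def congrGens (M : ℕ) [NeZero M] (p : ℕ) (good : ℕ → Prop) (a : ℕ → ℤ) :
    Set (heckeAlgebra M 2 (∅ : Set ℕ)) :=
  {(p : heckeAlgebra M 2 (∅ : Set ℕ))} ∪
    {t | ∃ (ℓ : ℕ) (hℓ : ℓ.Prime) (hℓM : ¬ ℓ ∣ M), good ℓ ∧ ℓ ≠ p ∧
      t = heckeAlgebra.T hℓ hℓM (Set.notMem_empty ℓ) -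
        ((a ℓ : ℤ) : heckeAlgebra M 2 (∅ : Set ℕ))}

theorem periodHomPair_natCast_smul (p : ℕ)
    (y : CuspForm (Gamma0 M) 2 × CuspForm (Gamma0 M) 2) :
    periodHomPair M ((p : heckeAlgebra M 2 (∅ : Set ℕ)) • y) = (p : ℤ) • periodHomPair M y := by
  have h1 : (p : heckeAlgebra M 2 (∅ : Set ℕ)) • y = (p : ℤ) • y := by
    rw [← Int.cast_natCast (R := heckeAlgebra M 2 (∅ : Set ℕ)), Int.cast_smul_eq_zsmul]
  rw [h1, map_zsmul]

theorem periodHomPair_T_sub_smul (a : ℕ → ℤ) {ℓ : ℕ} (hℓ : ℓ.Prime) (hℓM : ¬ ℓ ∣ M)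
    (y : CuspForm (Gamma0 M) 2 × CuspForm (Gamma0 M) 2) :
    periodHomPair M ((heckeAlgebra.T hℓ hℓM (Set.notMem_empty ℓ) -
        ((a ℓ : ℤ) : heckeAlgebra M 2 (∅ : Set ℕ))) • y) =
      cT hℓ hℓM (periodHomPair M y) - a ℓ • periodHomPair M y := by
  rw [sub_smul, map_sub, periodHomPair_smul_T, Int.cast_smul_eq_zsmul, map_zsmul]

/-- The period of a generator-multiple: if `castHom φ` is the period of `y` then the period of
`s • y` is the cast of the corresponding element of `congrSet`. -/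
theorem exists_castHom_eq_of_mem_congrGens {p : ℕ} {good : ℕ → Prop} {a : ℕ → ℤ}
    {X : AddSubgroup (Additive (Gamma0 M) →+ ℤ)}
    {s : heckeAlgebra M 2 (∅ : Set ℕ)} (hs : s ∈ congrGens M p good a)
    {y : CuspForm (Gamma0 M) 2 × CuspForm (Gamma0 M) 2} {φ : Additive (Gamma0 M) →+ ℤ}
    (hφ : φ ∈ X) (hφy : castHom φ = periodHomPair M y) :
    ∃ ψ ∈ congrSet p good a X, castHom ψ = periodHomPair M (s • y) := by
  rcases hs with hs | ⟨ℓ, hℓ, hℓM, hgood, hℓp, rfl⟩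
  · rw [Set.mem_singleton_iff] at hs
    subst hs
    refine ⟨(p : ℤ) • φ, Or.inl ⟨φ, hφ, rfl⟩, ?_⟩
    rw [periodHomPair_natCast_smul, map_zsmul, hφy]
  · refine ⟨cT hℓ hℓM φ - a ℓ • φ, Or.inr ⟨ℓ, hℓ, hℓM, hgood, hℓp, φ, hφ, rfl⟩, ?_⟩
    rw [periodHomPair_T_sub_smul, map_sub, map_zsmul, ← hφy]
    congr 1
    exact (heckeHom_castHom _ φ).symm

/-- `pairs X` is stable under the generators as soon as `X` is stable under the good `T_ℓ`. -/
theorem smul_mem_pairs {p : ℕ} {good : ℕ → Prop} {a : ℕ → ℤ}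
    {X : AddSubgroup (Additive (Gamma0 M) →+ ℤ)}
    (hT : ∀ (ℓ : ℕ) (hℓ : ℓ.Prime) (hℓM : ¬ ℓ ∣ M), good ℓ → ℓ ≠ p → ∀ φ ∈ X, cT hℓ hℓM φ ∈ X) :
    ∀ s ∈ congrGens M p good a, ∀ y ∈ pairs X, s • y ∈ pairs X := by
  intro s hs y hy
  obtain ⟨φ, hφ, hφy⟩ := (mem_pairs X y).1 hy
  obtain ⟨ψ, hψ, hψy⟩ := exists_castHom_eq_of_mem_congrGens hs hφ hφy
  refine (mem_pairs X _).2 ⟨ψ, ?_, hψy⟩
  rcases hψ with ⟨χ, hχ, rfl⟩ | ⟨ℓ, hℓ, hℓM, hgood, hℓp, χ, hχ, rfl⟩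
  · exact X.zsmul_mem hχ _
  · exact X.sub_mem (hT ℓ hℓ hℓM hgood hℓp χ hχ) (X.zsmul_mem hχ _)

/-- If `U_q ^ 2 = 1` on `X` then `pairs X` lies in `newKer × newKer`, so it is killed by the
annihilator of `newKer`. -/
theorem smul_eq_zero_of_mem_annNewKer {q : ℕ} (hq : q.Prime) (hqM : q ∣ M)
    {X : AddSubgroup (Additive (Gamma0 M) →+ ℤ)}
    (hnew : ∀ φ ∈ X, cU hq hqM (cU hq hqM φ) = φ) :
    ∀ t ∈ annNewKer hqM, ∀ y ∈ pairs X, t • y = 0 := by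
  have hinj : Function.Injective (periodHomPair M) := (Fermat.Agent.S21.result M).1
  intro t ht y hy
  obtain ⟨φ, hφ, hφy⟩ := (mem_pairs X y).1 hy
  have hU : (heckeAlgebra.U hq hqM (Set.notMem_empty q) : heckeAlgebra M 2 (∅ : Set ℕ)) •
      ((heckeAlgebra.U hq hqM (Set.notMem_empty q) : heckeAlgebra M 2 (∅ : Set ℕ)) • y) = y := by
    apply hinj
    rw [periodHomPair_smul_U, periodHomPair_smul_U, ← hφy]
    have h1 : cU hq hqM (castHom φ) = castHom (cU hq hqM φ) := heckeHom_castHom _ φ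
    have h2 : cU hq hqM (castHom (cU hq hqM φ)) = castHom (cU hq hqM (cU hq hqM φ)) :=
      heckeHom_castHom _ _
    rw [h1, h2, hnew φ hφ]
  obtain ⟨f, g⟩ := y
  have hf : f ∈ newKer hqM := by
    rw [mem_newKer]
    exact congrArg Prod.fst hU
  have hg : g ∈ newKer hqM := by
    rw [mem_newKer]
    exact congrArg Prod.snd hU
  show ((t : Module.End ℂ (CuspForm (Gamma0 M) 2)) f,
    (t : Module.End ℂ (CuspForm (Gamma0 M) 2)) g) = 0
  rw [(mem_annNewKer hqM t).1 ht f hf, (mem_annNewKer hqM t).1 ht g hg]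
  rfl

/-- From a maximal ideal containing `annNewKer` and `congrGens` to the eigenform. -/
theorem exists_eigenform_of_congrGens_subset {q : ℕ} (hq : q.Prime) (hqM : q ∣ M) {p : ℕ}
    (good : ℕ → Prop) (a : ℕ → ℤ) (nn : Ideal (heckeAlgebra M 2 (∅ : Set ℕ))) (hmax : nn.IsMaximal)
    (hA : annNewKer hqM ≤ nn) (hI : congrGens M p good a ⊆ nn) :
    ∃ (g : CuspForm (Gamma0 M) 2) (𝔪' : Ideal (integralClosure ℤ ℂ)),
      g.IsNormalizedEigenform ∧ 𝔪'.IsMaximal ∧ (p : integralClosure ℤ ℂ) ∈ 𝔪' ∧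
      (∀ ℓ : ℕ, ℓ.Prime → good ℓ → ¬ ℓ ∣ M → ℓ ≠ p →
        ∃ c : integralClosure ℤ ℂ, (c : ℂ) = ModularFormClass.qCoeff g ℓ ∧
          c - ((a ℓ : ℤ) : integralClosure ℤ ℂ) ∈ 𝔪') ∧
      g.IsNewAt q := by
  have := hmax
  refine exists_eigenform_of_maximal hq hqM good a nn (fun t ht => hA ht) ?_ ?_
  · exact hI (Or.inl rfl)
  · intro ℓ hℓ hℓM hgood hℓp
    exact hI (Or.inr ⟨ℓ, hℓ, hℓM, hgood, hℓp, rfl⟩)

/-- **Concrete bridge** (abstract `good`, `a`). -/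
theorem exists_eigenform_of_lattice {q : ℕ} (hq : q.Prime) (hqM : q ∣ M) {p : ℕ}
    (good : ℕ → Prop) (a : ℕ → ℤ) (X : AddSubgroup (Additive (Gamma0 M) →+ ℤ))
    (hpar : ∀ φ ∈ X, IsParabolicHom (Gamma0 M) φ)
    (hT : ∀ (ℓ : ℕ) (hℓ : ℓ.Prime) (hℓM : ¬ ℓ ∣ M), good ℓ → ℓ ≠ p → ∀ φ ∈ X, cT hℓ hℓM φ ∈ X)
    (hnew : ∀ φ ∈ X, cU hq hqM (cU hq hqM φ) = φ)
    (hne : ∃ φ ∈ X, φ ∉ AddSubgroup.closure (congrSet p good a X)) :
    ∃ (g : CuspForm (Gamma0 M) 2) (𝔪' : Ideal (integralClosure ℤ ℂ)),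
      g.IsNormalizedEigenform ∧ 𝔪'.IsMaximal ∧ (p : integralClosure ℤ ℂ) ∈ 𝔪' ∧
      (∀ ℓ : ℕ, ℓ.Prime → good ℓ → ¬ ℓ ∣ M → ℓ ≠ p →
        ∃ c : integralClosure ℤ ℂ, (c : ℂ) = ModularFormClass.qCoeff g ℓ ∧
          c - ((a ℓ : ℤ) : integralClosure ℤ ℂ) ∈ 𝔪') ∧
      g.IsNewAt q := by
  have : Module.Finite ℤ (heckeAlgebra M 2 (∅ : Set ℕ)) := Fermat.Agent.S22.result M 2 ∅
  have : Algebra.IsIntegral ℤ (heckeAlgebra M 2 (∅ : Set ℕ)) := Algebra.IsIntegral.of_finite _ _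
  -- non-divisibility is transported
  have hne' : ∃ x ∈ pairs X,
      x ∉ AddSubgroup.closure (divSet (congrGens M p good a) (pairs X)) := by
    obtain ⟨φ, hφ, hφn⟩ := hne
    obtain ⟨x, hx⟩ := exists_pair_of_isParabolicHom (hpar φ hφ)
    refine ⟨x, (mem_pairs X x).2 ⟨φ, hφ, hx⟩, fun hxD => hφn ?_⟩
    -- the period of an element of the closure of `divSet` is the cast of an element of the
    -- closure of `congrSet`
    have key : ∀ z ∈ AddSubgroup.closure (divSet (congrGens M p good a) (pairs X)),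
        ∃ ψ ∈ AddSubgroup.closure (congrSet p good a X), castHom ψ = periodHomPair M z := by
      intro z hz
      induction hz using AddSubgroup.closure_induction with
      | mem z hz =>
        obtain ⟨s, hs, y, hy, rfl⟩ := hz
        obtain ⟨χ, hχ, hχy⟩ := (mem_pairs X y).1 hy
        obtain ⟨ψ, hψ, hψy⟩ := exists_castHom_eq_of_mem_congrGens hs hχ hχy
        exact ⟨ψ, AddSubgroup.subset_closure hψ, hψy⟩
      | zero => exact ⟨0, AddSubgroup.zero_mem _, by rw [map_zero, map_zero]⟩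
      | add z w _ _ hz hw =>
        obtain ⟨ψ, hψ, hψz⟩ := hz
        obtain ⟨ψ', hψ', hψw⟩ := hw
        exact ⟨ψ + ψ', AddSubgroup.add_mem _ hψ hψ', by rw [map_add, map_add, hψz, hψw]⟩
      | neg z _ hz =>
        obtain ⟨ψ, hψ, hψz⟩ := hz
        exact ⟨-ψ, AddSubgroup.neg_mem _ hψ, by rw [map_neg, map_neg, hψz]⟩
    obtain ⟨ψ, hψ, hψx⟩ := key x hxD
    have : ψ = φ := castHom_injective (hψx.trans hx.symm)
    rwa [this] at hψ
  obtain ⟨nn, hmax, hA, hI⟩ :=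
    exists_maximal_of_addSubgroup (annNewKer hqM) (congrGens M p good a) (pairs X)
      (smul_eq_zero_of_mem_annNewKer hq hqM hnew) (smul_mem_pairs hT) hne'
  exact exists_eigenform_of_congrGens_subset hq hqM good a nn hmax hA hI

/-- **Concrete bridge**, in the literal shape of the frozen S41 conclusion. -/
theorem exists_newAt_congruentEigenform_of_lattice {W : WeierstrassCurve ℤ} {p N q' : ℕ}
    [NeZero (N * q')] (hq' : q'.Prime)
    (X : AddSubgroup (Additive (Gamma0 (N * q')) →+ ℤ))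
    (hpar : ∀ φ ∈ X, IsParabolicHom (Gamma0 (N * q')) φ)
    (hT : ∀ (ℓ : ℕ) (hℓ : ℓ.Prime) (hℓM : ¬ ℓ ∣ N * q'), W.IsGoodPrimeFor ℓ → ℓ ≠ p →
      ∀ φ ∈ X, cT hℓ hℓM φ ∈ X)
    (hnew : ∀ φ ∈ X, cU hq' (dvd_mul_left q' N) (cU hq' (dvd_mul_left q' N) φ) = φ)
    (hne : ∃ φ ∈ X, φ ∉ AddSubgroup.closure (congrSet p W.IsGoodPrimeFor W.apOfModel X)) :
    ∃ (g : CuspForm (CongruenceSubgroup.Gamma0 (N * q')) 2) (𝔪' : Ideal (integralClosure ℤ ℂ)),
      g.IsNormalizedEigenform ∧ 𝔪'.IsMaximal ∧ (p : integralClosure ℤ ℂ) ∈ 𝔪' ∧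
      (∀ ℓ : ℕ, ℓ.Prime → W.IsGoodPrimeFor ℓ → ¬ ℓ ∣ N * q' → ℓ ≠ p →
        ∃ a : integralClosure ℤ ℂ, (a : ℂ) = ModularFormClass.qCoeff g ℓ ∧
          a - ((W.apOfModel ℓ : ℤ) : integralClosure ℤ ℂ) ∈ 𝔪') ∧
      g.IsNewAt q' :=
  exists_eigenform_of_lattice hq' (dvd_mul_left q' N) W.IsGoodPrimeFor W.apOfModel X hpar hT hnew
    hne

end Fermat.Agent.S41.R4.Lattice
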