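/-
S41 volunteer leaf (R4): the TORSION-FORM ADAPTER = the exact consumer of the abstract
level-raising lemma (output: `x ∈ ker β`, `x` not divisible by `p`, `T_ℓ x - a_ℓ x ∈ p • ker β`).

Input: an additive subgroup `K` of `Hom(Γ₀(M), ℤ)` (think `K = ker β ∩ Par`), consisting of parabolic
homomorphisms, stable under the coset operators `T_ℓ` for the good primes `ℓ ∤ M`, `ℓ ≠ p`, with
`U_q ^ 2 = 1` on `K`; an element `x ∈ K` which is not `p` times an element of `K`, and such that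
`T_ℓ x - a_ℓ x ∈ p • K` for all those `ℓ`.

Output: the literal frozen conclusion of S41.

Proof: on the side of pairs of cusp forms take `Y := ℤ[T_ℓ - a_ℓ] • y` (`y` the pair with period
`x`); all generator-multiples of `Y` are periods of elements of `p • K`, and `y` is not; apply the
anemic bridge.
-/
import Mathlib
import Fermat.Agent.S41.R4.Lattice

set_option autoImplicit false

namespace Fermat.Agent.S41.R4.Torsion

open CuspForm CongruenceSubgroup ModularFormClass ModularCurve ModularCurve.Period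
open Fermat.Agent.S16.HeckeHom Fermat.Agent.S16.PeriodHeckePair
open Fermat.Agent.S41.R4.Extraction Fermat.Agent.S41.R4.Bridge Fermat.Agent.S41.R4.AnemicBridge
open Fermat.Agent.S41.R4.Lattice
open scoped MatrixGroups

variable {M : ℕ} [NeZero M]

/-- The subgroup `p • K`. -/
def pMul (p : ℕ) (K : AddSubgroup (Additive (Gamma0 M) →+ ℤ)) :
    AddSubgroup (Additive (Gamma0 M) →+ ℤ) :=
  K.map (zsmulAddGroupHom (p : ℤ))

omit [NeZero M] in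
theorem mem_pMul {p : ℕ} {K : AddSubgroup (Additive (Gamma0 M) →+ ℤ)}
    {ψ : Additive (Gamma0 M) →+ ℤ} : ψ ∈ pMul p K ↔ ∃ k ∈ K, (p : ℤ) • k = ψ := by
  rw [pMul, AddSubgroup.mem_map]
  rfl

/-- **Torsion-form adapter** (abstract `good`, `a`). -/
theorem exists_eigenform_of_torsion_datum {q : ℕ} (hq : q.Prime) (hqM : q ∣ M) {p : ℕ}
    (good : ℕ → Prop) (a : ℕ → ℤ) (K : AddSubgroup (Additive (Gamma0 M) →+ ℤ))
    (hpar : ∀ φ ∈ K, IsParabolicHom (Gamma0 M) φ)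
    (hT : ∀ (ℓ : ℕ) (hℓ : ℓ.Prime) (hℓM : ¬ ℓ ∣ M), good ℓ → ℓ ≠ p → ∀ φ ∈ K, cT hℓ hℓM φ ∈ K)
    (hnew : ∀ φ ∈ K, cU hq hqM (cU hq hqM φ) = φ)
    (x : Additive (Gamma0 M) →+ ℤ) (hxK : x ∈ K) (hxp : ∀ k ∈ K, x ≠ (p : ℤ) • k)
    (hx : ∀ (ℓ : ℕ) (hℓ : ℓ.Prime) (hℓM : ¬ ℓ ∣ M), good ℓ → ℓ ≠ p →
      ∃ m ∈ K, cT hℓ hℓM x - a ℓ • x = (p : ℤ) • m) :
    ∃ (g : CuspForm (Gamma0 M) 2) (𝔪' : Ideal (integralClosure ℤ ℂ)),
      g.IsNormalizedEigenform ∧ 𝔪'.IsMaximal ∧ (p : integralClosure ℤ ℂ) ∈ 𝔪' ∧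
      (∀ ℓ : ℕ, ℓ.Prime → good ℓ → ¬ ℓ ∣ M → ℓ ≠ p →
        ∃ c : integralClosure ℤ ℂ, (c : ℂ) = ModularFormClass.qCoeff g ℓ ∧
          c - ((a ℓ : ℤ) : integralClosure ℤ ℂ) ∈ 𝔪') ∧
      g.IsNewAt q := by
  have : Module.Finite ℤ (heckeAlgebra M 2 (∅ : Set ℕ)) := Fermat.Agent.S22.result M 2 ∅
  have : Algebra.IsIntegral ℤ (heckeAlgebra M 2 (∅ : Set ℕ)) := Algebra.IsIntegral.of_finite _ _
  set gens := congrGens M p good a with hgens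
  -- the pair with period `x`
  obtain ⟨y, hy⟩ := exists_pair_of_isParabolicHom (hpar x hxK)
  have hyK : y ∈ pairs K := (mem_pairs K y).2 ⟨x, hxK, hy⟩
  -- `p • K` is stable under the good `T_ℓ`
  have hTp : ∀ (ℓ : ℕ) (hℓ : ℓ.Prime) (hℓM : ¬ ℓ ∣ M), good ℓ → ℓ ≠ p →
      ∀ φ ∈ pMul p K, cT hℓ hℓM φ ∈ pMul p K := by
    intro ℓ hℓ hℓM hgood hℓp φ hφ
    obtain ⟨k, hk, rfl⟩ := mem_pMul.1 hφ
    refine mem_pMul.2 ⟨cT hℓ hℓM k, hT ℓ hℓ hℓM hgood hℓp k hk, ?_⟩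
    exact (CosetSystem.heckeHom_zsmul _ _ _).symm
  -- the orbit of `y` under `ℤ[gens]`
  let Y : AddSubgroup (CuspForm (Gamma0 M) 2 × CuspForm (Gamma0 M) 2) :=
    { carrier := {z | ∃ t ∈ Algebra.adjoin ℤ gens, z = t • y}
      zero_mem' := ⟨0, Subalgebra.zero_mem _, (zero_smul _ y).symm⟩
      add_mem' := by
        rintro _ _ ⟨s, hs, rfl⟩ ⟨t, ht, rfl⟩
        exact ⟨s + t, Subalgebra.add_mem _ hs ht, add_smul s t y⟩
      neg_mem' := by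
        rintro _ ⟨s, hs, rfl⟩
        exact ⟨-s, Subalgebra.neg_mem _ hs, neg_smul s y⟩ }
  have hYmem : ∀ z, z ∈ Y ↔ ∃ t ∈ Algebra.adjoin ℤ gens, z = t • y := fun _ => Iff.rfl
  have hYK : ∀ z ∈ Y, z ∈ pairs K := by
    rintro _ ⟨t, ht, rfl⟩
    exact smul_mem_of_mem_adjoin (smul_mem_pairs hT) ht y hyK
  have hkill : ∀ t ∈ annNewKer hqM, ∀ z ∈ Y, t • z = 0 := fun t ht z hz =>
    smul_eq_zero_of_mem_annNewKer hq hqM hnew t ht z (hYK z hz)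
  have hstab : ∀ s ∈ gens, ∀ z ∈ Y, s • z ∈ Y := by
    rintro s hs _ ⟨t, ht, rfl⟩
    exact ⟨s * t, Subalgebra.mul_mem _ (Algebra.subset_adjoin hs) ht, (mul_smul s t y).symm⟩
  -- generator multiples of `y` are periods of elements of `p • K`
  have hsy : ∀ s ∈ gens, s • y ∈ pairs (pMul p K) := by
    rintro s (hs | ⟨ℓ, hℓ, hℓM, hgood, hℓp, rfl⟩)
    · rw [Set.mem_singleton_iff] at hs
      subst hs
      refine (mem_pairs _ _).2 ⟨(p : ℤ) • x, mem_pMul.2 ⟨x, hxK, rfl⟩, ?_⟩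
      rw [periodHomPair_natCast_smul, map_zsmul, hy]
    · obtain ⟨m, hm, hxm⟩ := hx ℓ hℓ hℓM hgood hℓp
      refine (mem_pairs _ _).2 ⟨(p : ℤ) • m, mem_pMul.2 ⟨m, hm, rfl⟩, ?_⟩
      rw [periodHomPair_T_sub_smul, ← hxm, map_sub, map_zsmul, ← hy]
      congr 1
      exact (heckeHom_castHom _ x).symm
  have hD : ∀ z ∈ AddSubgroup.closure (divSet gens Y), z ∈ pairs (pMul p K) := by
    intro z hz
    induction hz using AddSubgroup.closure_induction with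
    | mem z hz =>
      obtain ⟨s, hs, w, ⟨t, ht, rfl⟩, rfl⟩ := hz
      rw [← mul_smul, mul_comm, mul_smul]
      exact smul_mem_of_mem_adjoin (smul_mem_pairs hTp) ht _ (hsy s hs)
    | zero => exact AddSubgroup.zero_mem _
    | add z w _ _ hz hw => exact AddSubgroup.add_mem _ hz hw
    | neg z _ hz => exact AddSubgroup.neg_mem _ hz
  have hne : ∃ z ∈ Y, z ∉ AddSubgroup.closure (divSet gens Y) := by
    refine ⟨y, ⟨1, Subalgebra.one_mem _, (one_smul _ y).symm⟩, fun hyD => ?_⟩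
    obtain ⟨ψ, hψ, hψy⟩ := (mem_pairs _ _).1 (hD y hyD)
    obtain ⟨k, hk, rfl⟩ := mem_pMul.1 hψ
    have : (p : ℤ) • k = x := castHom_injective (hψy.trans hy.symm)
    exact hxp k hk this.symm
  obtain ⟨nn, hmax, hA, hI⟩ :=
    exists_maximal_of_addSubgroup (annNewKer hqM) gens Y hkill hstab hne
  exact exists_eigenform_of_congrGens_subset hq hqM good a nn hmax hA hI

/-- **Torsion-form adapter**, in the literal shape of the frozen S41 conclusion. -/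
theorem exists_newAt_congruentEigenform_of_torsion_datum {W : WeierstrassCurve ℤ} {p N q' : ℕ}
    [NeZero (N * q')] (hq' : q'.Prime)
    (K : AddSubgroup (Additive (Gamma0 (N * q')) →+ ℤ))
    (hpar : ∀ φ ∈ K, IsParabolicHom (Gamma0 (N * q')) φ)
    (hT : ∀ (ℓ : ℕ) (hℓ : ℓ.Prime) (hℓM : ¬ ℓ ∣ N * q'), W.IsGoodPrimeFor ℓ → ℓ ≠ p →
      ∀ φ ∈ K, cT hℓ hℓM φ ∈ K)
    (hnew : ∀ φ ∈ K, cU hq' (dvd_mul_left q' N) (cU hq' (dvd_mul_left q' N) φ) = φ)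
    (x : Additive (Gamma0 (N * q')) →+ ℤ) (hxK : x ∈ K) (hxp : ∀ k ∈ K, x ≠ (p : ℤ) • k)
    (hx : ∀ (ℓ : ℕ) (hℓ : ℓ.Prime) (hℓM : ¬ ℓ ∣ N * q'), W.IsGoodPrimeFor ℓ → ℓ ≠ p →
      ∃ m ∈ K, cT hℓ hℓM x - W.apOfModel ℓ • x = (p : ℤ) • m) :
    ∃ (g : CuspForm (CongruenceSubgroup.Gamma0 (N * q')) 2) (𝔪' : Ideal (integralClosure ℤ ℂ)),
      g.IsNormalizedEigenform ∧ 𝔪'.IsMaximal ∧ (p : integralClosure ℤ ℂ) ∈ 𝔪' ∧
      (∀ ℓ : ℕ, ℓ.Prime → W.IsGoodPrimeFor ℓ → ¬ ℓ ∣ N * q' → ℓ ≠ p →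
        ∃ a : integralClosure ℤ ℂ, (a : ℂ) = ModularFormClass.qCoeff g ℓ ∧
          a - ((W.apOfModel ℓ : ℤ) : integralClosure ℤ ℂ) ∈ 𝔪') ∧
      g.IsNewAt q' :=
  exists_eigenform_of_torsion_datum hq' (dvd_mul_left q' N) W.IsGoodPrimeFor W.apOfModel K hpar hT
    hnew x hxK hxp hx

end Fermat.Agent.S41.R4.Torsion
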