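/-
S41 volunteer leaf (R4), adapter (helper72): from the TORSION DATUM to the concrete bridge.

The abstract level-raising lemma (`S41/R1/CongruenceLemma`) outputs a *torsion datum*: an element
`x` of the lattice `X = ker β ⊆ Hom_par(Γ₀(M), ℤ)` which is not divisible by `p` in `X` and which
is an eigenvector modulo `p X` of the good Hecke operators, `T_ℓ x - a_ℓ x ∈ p X`.

The concrete bridge (`S41/R4/Lattice`, helper77) wants a lattice `X'`, stable under the good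
`T_ℓ`, with `X' ≠ (p, T_ℓ - a_ℓ) X'`.  We take for `X'` the smallest additive subgroup of `X`
containing `x` and stable under the good `T_ℓ`.  Since the coset operators `T_ℓ` commute on
parabolic `ℤ`-valued homomorphisms (transport to cusp forms through Eichler–Shimura, where the
Hecke algebra is commutative), `(T_ℓ - a_ℓ) X' ⊆ p X`, while `x ∉ p X`.

Main results:
* `cT_comm`: the coset operators `T_ℓ`, `T_ℓ'` commute on parabolic `ℤ`-valued homomorphisms;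
* `isParabolicHom_cT`: `T_ℓ` preserves parabolic `ℤ`-valued homomorphisms;
* `exists_eigenform_of_torsionDatum` (level `M`, abstract `good`, `a`) and
  `exists_newAt_congruentEigenform_of_torsionDatum` (literal frozen S41 conclusion).
-/
import Mathlib
import Fermat.Agent.S41.R4.Lattice

set_option autoImplicit false

namespace Fermat.Agent.S41.R4.TorsionAdapter

open CuspForm CongruenceSubgroup ModularFormClass ModularCurve ModularCurve.Period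
open Fermat.Agent.S16.HeckeHom Fermat.Agent.S16.PeriodHeckePair
open Fermat.Agent.S41.R4.Lattice
open scoped MatrixGroups

variable {M : ℕ}

/-! ### Additivity of the coset operators `cT` -/

section Additive

variable {A : Type*} [AddCommGroup A] {ℓ : ℕ} (hℓ : ℓ.Prime) (hℓM : ¬ ℓ ∣ M)

theorem cT_add (φ ψ : Additive (Gamma0 M) →+ A) :
    cT hℓ hℓM (φ + ψ) = cT hℓ hℓM φ + cT hℓ hℓM ψ :=
  (@cosetT M ℓ ⟨hℓ⟩ hℓM).heckeHom_add φ ψ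

theorem cT_zero : cT hℓ hℓM (0 : Additive (Gamma0 M) →+ A) = 0 :=
  (@cosetT M ℓ ⟨hℓ⟩ hℓM).heckeHom_zero

theorem cT_neg (φ : Additive (Gamma0 M) →+ A) : cT hℓ hℓM (-φ) = -cT hℓ hℓM φ :=
  (@cosetT M ℓ ⟨hℓ⟩ hℓM).heckeHom_neg φ

theorem cT_sub (φ ψ : Additive (Gamma0 M) →+ A) :
    cT hℓ hℓM (φ - ψ) = cT hℓ hℓM φ - cT hℓ hℓM ψ :=
  (@cosetT M ℓ ⟨hℓ⟩ hℓM).heckeHom_sub φ ψ

theorem cT_zsmul (n : ℤ) (φ : Additive (Gamma0 M) →+ A) :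
    cT hℓ hℓM (n • φ) = n • cT hℓ hℓM φ :=
  (@cosetT M ℓ ⟨hℓ⟩ hℓM).heckeHom_zsmul n φ

theorem cT_castHom (φ : Additive (Gamma0 M) →+ ℤ) :
    cT hℓ hℓM (castHom φ) = castHom (cT hℓ hℓM φ) :=
  heckeHom_castHom _ φ

end Additive

/-! ### Transport through Eichler–Shimura -/

section Transport

variable [NeZero M]

/-- `T_ℓ` of a parabolic `ℤ`-valued homomorphism is again the period of a pair. -/
theorem exists_pair_cT {ℓ : ℕ} (hℓ : ℓ.Prime) (hℓM : ¬ ℓ ∣ M)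
    {φ : Additive (Gamma0 M) →+ ℤ}
    {y : CuspForm (Gamma0 M) 2 × CuspForm (Gamma0 M) 2} (hy : castHom φ = periodHomPair M y) :
    castHom (cT hℓ hℓM φ) = periodHomPair M
      ((heckeAlgebra.T hℓ hℓM (Set.notMem_empty ℓ) : heckeAlgebra M 2 (∅ : Set ℕ)) • y) := by
  rw [periodHomPair_smul_T, ← hy, cT_castHom]

/-- The period of a pair of cusp forms is a parabolic homomorphism. -/
theorem isParabolicHom_of_castHom_eq {φ : Additive (Gamma0 M) →+ ℤ}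
    {y : CuspForm (Gamma0 M) 2 × CuspForm (Gamma0 M) 2} (hy : castHom φ = periodHomPair M y) :
    IsParabolicHom (Gamma0 M) φ := by
  have h1 : periodHomPair M y ∈ parabolicHoms ℂ (Gamma0 M) ℂ := by
    rw [← (Fermat.Agent.S21.result M).2]
    exact ⟨y, rfl⟩
  rw [← hy, mem_parabolicHoms_iff] at h1
  intro γ hγ
  have h2 := h1 γ hγ
  rw [castHom_apply] at h2
  exact_mod_cast h2

/-- The coset operator `T_ℓ` preserves parabolic `ℤ`-valued homomorphisms. -/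
theorem isParabolicHom_cT {ℓ : ℕ} (hℓ : ℓ.Prime) (hℓM : ¬ ℓ ∣ M)
    {φ : Additive (Gamma0 M) →+ ℤ} (hφ : IsParabolicHom (Gamma0 M) φ) :
    IsParabolicHom (Gamma0 M) (cT hℓ hℓM φ) := by
  obtain ⟨y, hy⟩ := exists_pair_of_isParabolicHom hφ
  exact isParabolicHom_of_castHom_eq (exists_pair_cT hℓ hℓM hy)

/-- The coset operators `T_ℓ`, `T_ℓ'` commute on parabolic `ℤ`-valued homomorphisms. -/
theorem cT_comm {ℓ ℓ' : ℕ} (hℓ : ℓ.Prime) (hℓM : ¬ ℓ ∣ M) (hℓ' : ℓ'.Prime) (hℓ'M : ¬ ℓ' ∣ M)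
    {φ : Additive (Gamma0 M) →+ ℤ} (hφ : IsParabolicHom (Gamma0 M) φ) :
    cT hℓ hℓM (cT hℓ' hℓ'M φ) = cT hℓ' hℓ'M (cT hℓ hℓM φ) := by
  obtain ⟨y, hy⟩ := exists_pair_of_isParabolicHom hφ
  apply castHom_injective
  rw [exists_pair_cT hℓ hℓM (exists_pair_cT hℓ' hℓ'M hy),
    exists_pair_cT hℓ' hℓ'M (exists_pair_cT hℓ hℓM hy), smul_smul, smul_smul, mul_comm]

end Transport

/-! ### The cyclic sublattice -/

section Cyclic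

variable {p : ℕ} (good : ℕ → Prop) (a : ℕ → ℤ)
  (X : AddSubgroup (Additive (Gamma0 M) →+ ℤ))

/-- The additive subgroups containing `x` and stable under the good `T_ℓ`. -/
def stableSet (p : ℕ) (x : Additive (Gamma0 M) →+ ℤ) :
    Set (AddSubgroup (Additive (Gamma0 M) →+ ℤ)) :=
  {Y | x ∈ Y ∧ ∀ (ℓ : ℕ) (hℓ : ℓ.Prime) (hℓM : ¬ ℓ ∣ M), good ℓ → ℓ ≠ p →
    ∀ φ ∈ Y, cT hℓ hℓM φ ∈ Y}

/-- The smallest additive subgroup containing `x` and stable under the good `T_ℓ`. -/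
def cyc (p : ℕ) (x : Additive (Gamma0 M) →+ ℤ) : AddSubgroup (Additive (Gamma0 M) →+ ℤ) :=
  sInf (stableSet good p x)

theorem mem_cyc (x : Additive (Gamma0 M) →+ ℤ) : x ∈ cyc good p x := by
  rw [cyc, AddSubgroup.mem_sInf]
  exact fun Y hY => hY.1

theorem cyc_le {x : Additive (Gamma0 M) →+ ℤ} {Y : AddSubgroup (Additive (Gamma0 M) →+ ℤ)}
    (hY : Y ∈ stableSet good p x) : cyc good p x ≤ Y :=
  sInf_le hY

theorem cT_mem_cyc (x : Additive (Gamma0 M) →+ ℤ) {ℓ : ℕ} (hℓ : ℓ.Prime) (hℓM : ¬ ℓ ∣ M)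
    (hgood : good ℓ) (hℓp : ℓ ≠ p) {φ : Additive (Gamma0 M) →+ ℤ} (hφ : φ ∈ cyc good p x) :
    cT hℓ hℓM φ ∈ cyc good p x := by
  rw [cyc, AddSubgroup.mem_sInf] at hφ ⊢
  exact fun Y hY => hY.2 ℓ hℓ hℓM hgood hℓp φ (hφ Y hY)

/-- The multiples `p • m`, `m ∈ X`. -/
def pMul (p : ℕ) : AddSubgroup (Additive (Gamma0 M) →+ ℤ) :=
  X.map (zsmulAddGroupHom (p : ℤ))

theorem mem_pMul {ψ : Additive (Gamma0 M) →+ ℤ} :
    ψ ∈ pMul X p ↔ ∃ m ∈ X, ψ = (p : ℤ) • m := by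
  rw [pMul, AddSubgroup.mem_map]
  constructor
  · rintro ⟨m, hm, rfl⟩
    exact ⟨m, hm, rfl⟩
  · rintro ⟨m, hm, rfl⟩
    exact ⟨m, hm, rfl⟩

/-- The elements of `X` which are eigenvectors modulo `p X` of all good `T_ℓ`. -/
def eigSub (p : ℕ) : AddSubgroup (Additive (Gamma0 M) →+ ℤ) where
  carrier := {φ | φ ∈ X ∧ ∀ (ℓ : ℕ) (hℓ : ℓ.Prime) (hℓM : ¬ ℓ ∣ M), good ℓ → ℓ ≠ p →
    cT hℓ hℓM φ - a ℓ • φ ∈ pMul X p}
  zero_mem' := by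
    refine ⟨X.zero_mem, fun ℓ hℓ hℓM _ _ => ?_⟩
    rw [cT_zero, smul_zero, sub_zero]
    exact AddSubgroup.zero_mem _
  add_mem' := by
    rintro φ ψ ⟨hφ, hφe⟩ ⟨hψ, hψe⟩
    refine ⟨X.add_mem hφ hψ, fun ℓ hℓ hℓM hg hp => ?_⟩
    have h : cT hℓ hℓM (φ + ψ) - a ℓ • (φ + ψ) =
        (cT hℓ hℓM φ - a ℓ • φ) + (cT hℓ hℓM ψ - a ℓ • ψ) := by
      rw [cT_add, smul_add]
      abel
    rw [h]
    exact AddSubgroup.add_mem _ (hφe ℓ hℓ hℓM hg hp) (hψe ℓ hℓ hℓM hg hp)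
  neg_mem' := by
    rintro φ ⟨hφ, hφe⟩
    refine ⟨X.neg_mem hφ, fun ℓ hℓ hℓM hg hp => ?_⟩
    have h : cT hℓ hℓM (-φ) - a ℓ • (-φ) = -(cT hℓ hℓM φ - a ℓ • φ) := by
      rw [cT_neg, smul_neg]
      abel
    rw [h]
    exact AddSubgroup.neg_mem _ (hφe ℓ hℓ hℓM hg hp)

variable [NeZero M]

/-- `eigSub` is stable under the good `T_ℓ`: this is where commutativity is used. -/
theorem cT_mem_eigSub
    (hpar : ∀ φ ∈ X, IsParabolicHom (Gamma0 M) φ)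
    (hT : ∀ (ℓ : ℕ) (hℓ : ℓ.Prime) (hℓM : ¬ ℓ ∣ M), good ℓ → ℓ ≠ p → ∀ φ ∈ X, cT hℓ hℓM φ ∈ X)
    {ℓ' : ℕ} (hℓ' : ℓ'.Prime) (hℓ'M : ¬ ℓ' ∣ M) (hg' : good ℓ') (hp' : ℓ' ≠ p)
    {φ : Additive (Gamma0 M) →+ ℤ} (hφ : φ ∈ eigSub good a X p) :
    cT hℓ' hℓ'M φ ∈ eigSub good a X p := by
  obtain ⟨hφX, hφe⟩ := hφ
  refine ⟨hT ℓ' hℓ' hℓ'M hg' hp' φ hφX, fun ℓ hℓ hℓM hg hp => ?_⟩
  obtain ⟨m, hm, hme⟩ := (mem_pMul X).1 (hφe ℓ hℓ hℓM hg hp)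
  refine (mem_pMul X).2 ⟨cT hℓ' hℓ'M m, hT ℓ' hℓ' hℓ'M hg' hp' m hm, ?_⟩
  rw [cT_comm hℓ hℓM hℓ' hℓ'M (hpar φ hφX), ← cT_zsmul, ← cT_zsmul, ← cT_sub, hme]

/-- **Adapter** (level `M`, abstract `good`, `a`): a torsion datum gives the eigenform. -/
theorem exists_eigenform_of_torsionDatum {q : ℕ} (hq : q.Prime) (hqM : q ∣ M)
    (hpar : ∀ φ ∈ X, IsParabolicHom (Gamma0 M) φ)
    (hT : ∀ (ℓ : ℕ) (hℓ : ℓ.Prime) (hℓM : ¬ ℓ ∣ M), good ℓ → ℓ ≠ p → ∀ φ ∈ X, cT hℓ hℓM φ ∈ X)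
    (hnew : ∀ φ ∈ X, cU hq hqM (cU hq hqM φ) = φ)
    (x : Additive (Gamma0 M) →+ ℤ) (hx : x ∈ X) (hxp : ∀ y ∈ X, x ≠ (p : ℤ) • y)
    (heig : ∀ (ℓ : ℕ) (hℓ : ℓ.Prime) (hℓM : ¬ ℓ ∣ M), good ℓ → ℓ ≠ p →
      ∃ m ∈ X, cT hℓ hℓM x - a ℓ • x = (p : ℤ) • m) :
    ∃ (g : CuspForm (Gamma0 M) 2) (𝔪' : Ideal (integralClosure ℤ ℂ)),
      g.IsNormalizedEigenform ∧ 𝔪'.IsMaximal ∧ (p : integralClosure ℤ ℂ) ∈ 𝔪' ∧
      (∀ ℓ : ℕ, ℓ.Prime → good ℓ → ¬ ℓ ∣ M → ℓ ≠ p →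
        ∃ c : integralClosure ℤ ℂ, (c : ℂ) = ModularFormClass.qCoeff g ℓ ∧
          c - ((a ℓ : ℤ) : integralClosure ℤ ℂ) ∈ 𝔪') ∧
      g.IsNewAt q := by
  -- the cyclic sublattice lies in `eigSub`
  have hxE : x ∈ eigSub good a X p :=
    ⟨hx, fun ℓ hℓ hℓM hg hp => (mem_pMul X).2 (heig ℓ hℓ hℓM hg hp)⟩
  have hle : cyc good p x ≤ eigSub good a X p :=
    cyc_le good ⟨hxE, fun ℓ hℓ hℓM hg hp φ hφ =>
      cT_mem_eigSub good a X hpar hT hℓ hℓM hg hp hφ⟩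
  have hleX : cyc good p x ≤ X := fun φ hφ => (hle hφ).1
  refine exists_eigenform_of_lattice hq hqM good a (cyc good p x)
    (fun φ hφ => hpar φ (hleX hφ))
    (fun ℓ hℓ hℓM hg hp φ hφ => cT_mem_cyc good x hℓ hℓM hg hp hφ)
    (fun φ hφ => hnew φ (hleX hφ)) ⟨x, mem_cyc good x, fun hmem => ?_⟩
  -- the closure of the congruence set lies in `p X`
  have hcl : AddSubgroup.closure (congrSet p good a (cyc good p x)) ≤ pMul X p := by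
    rw [AddSubgroup.closure_le]
    rintro ψ (⟨χ, hχ, rfl⟩ | ⟨ℓ, hℓ, hℓM, hg, hp, χ, hχ, rfl⟩)
    · exact (mem_pMul X).2 ⟨χ, hleX hχ, rfl⟩
    · exact (hle hχ).2 ℓ hℓ hℓM hg hp
  obtain ⟨y, hy, hxy⟩ := (mem_pMul X).1 (hcl hmem)
  exact hxp y hy hxy

end Cyclic

/-- **Adapter**, in the literal shape of the frozen S41 conclusion: a torsion datum in a lattice
`X` of parabolic homomorphisms of level `N * q'`, stable under the good `T_ℓ`, with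
`U_{q'} ^ 2 = 1` on `X`, gives the level-raised eigenform. -/
theorem exists_newAt_congruentEigenform_of_torsionDatum {W : WeierstrassCurve ℤ} {p N q' : ℕ}
    [NeZero (N * q')] (hq' : q'.Prime)
    (X : AddSubgroup (Additive (Gamma0 (N * q')) →+ ℤ))
    (hpar : ∀ φ ∈ X, IsParabolicHom (Gamma0 (N * q')) φ)
    (hT : ∀ (ℓ : ℕ) (hℓ : ℓ.Prime) (hℓM : ¬ ℓ ∣ N * q'), W.IsGoodPrimeFor ℓ → ℓ ≠ p →
      ∀ φ ∈ X, cT hℓ hℓM φ ∈ X)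
    (hnew : ∀ φ ∈ X, cU hq' (dvd_mul_left q' N) (cU hq' (dvd_mul_left q' N) φ) = φ)
    (x : Additive (Gamma0 (N * q')) →+ ℤ) (hx : x ∈ X) (hxp : ∀ y ∈ X, x ≠ (p : ℤ) • y)
    (heig : ∀ (ℓ : ℕ) (hℓ : ℓ.Prime) (hℓM : ¬ ℓ ∣ N * q'), W.IsGoodPrimeFor ℓ → ℓ ≠ p →
      ∃ m ∈ X, cT hℓ hℓM x - W.apOfModel ℓ • x = (p : ℤ) • m) :
    ∃ (g : CuspForm (CongruenceSubgroup.Gamma0 (N * q')) 2) (𝔪' : Ideal (integralClosure ℤ ℂ)),
      g.IsNormalizedEigenform ∧ 𝔪'.IsMaximal ∧ (p : integralClosure ℤ ℂ) ∈ 𝔪' ∧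
      (∀ ℓ : ℕ, ℓ.Prime → W.IsGoodPrimeFor ℓ → ¬ ℓ ∣ N * q' → ℓ ≠ p →
        ∃ a : integralClosure ℤ ℂ, (a : ℂ) = ModularFormClass.qCoeff g ℓ ∧
          a - ((W.apOfModel ℓ : ℤ) : integralClosure ℤ ℂ) ∈ 𝔪') ∧
      g.IsNewAt q' :=
  exists_eigenform_of_torsionDatum W.IsGoodPrimeFor W.apOfModel X hq' (dvd_mul_left q' N)
    hpar hT hnew x hx hxp heig

end Fermat.Agent.S41.R4.TorsionAdapter
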