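/-
S41 volunteer leaf (R4): the EXTRACTION LEMMA of the S41 study (helper20 #2488 (1)).

Level `M`, `q ∣ M` prime, `TT := heckeAlgebra M 2 ∅` (all `T_ℓ`, `ℓ ∤ M`, and all `U_ℓ`, `ℓ ∣ M`,
in particular `U_q`), `V' := ker (U_q ^ 2 - 1)` inside `S₂(Γ₀(M))`.  If `nn` is a maximal ideal of
`TT` containing the annihilator of `V'`, the prime `p`, and `T_ℓ - a ℓ` for the "good" primes
`ℓ ∤ M`, `ℓ ≠ p`, then there are a normalised eigenform `g` of level `M` with `a_q(g) ^ 2 = 1`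
(the frozen `IsNewAt q`) and a maximal ideal `𝔪'` of `ℤ̄` over `p` with `a_ℓ(g) ≡ a ℓ mod 𝔪'` at
those primes: the frozen conclusion of S41 (for `M = N * q'`, `a = W.apOfModel`,
`good = W.IsGoodPrimeFor`).

Proof = the proof of `Fermat.Agent.S49.result` with `S₂` replaced by `V'`.
-/
import Mathlib
import Fermat.Prelude.Def_FLTPrelim_ModularRep
import Fermat.Prelude.Def_FreyPackage_LevelRaising
import Fermat.Agent.S49.LinAlg
import Fermat.Agent.S49.CommonEigen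
import Fermat.Agent.S49.LyingOver
import Fermat.Agent.S49.Eigenform
import Fermat.Agent.S21.Reduction
import Fermat.Agent.S22

set_option autoImplicit false

namespace Fermat.Agent.S41.R4.Extraction

open CuspForm CongruenceSubgroup ModularFormClass

variable {M : ℕ} [NeZero M]

/-- The subspace of `S₂(Γ₀(M))` killed by `U_q ^ 2 - 1`. -/
noncomputable def newKer {q : ℕ} (hqM : q ∣ M) : Submodule ℂ (CuspForm (Gamma0 M) 2) :=
  LinearMap.ker (heckeULin 2 hqM * heckeULin 2 hqM - 1)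

theorem mem_newKer {q : ℕ} (hqM : q ∣ M) (w : CuspForm (Gamma0 M) 2) :
    w ∈ newKer hqM ↔ heckeULin 2 hqM (heckeULin 2 hqM w) = w := by
  rw [newKer, LinearMap.mem_ker, LinearMap.sub_apply, Module.End.mul_apply, Module.End.one_apply,
    sub_eq_zero]

/-- `newKer` is stable under the full Hecke algebra. -/
theorem heckeAlgebra_apply_mem_newKer {q : ℕ} (hq : q.Prime) (hqM : q ∣ M)
    (t : heckeAlgebra M 2 (∅ : Set ℕ)) (w : CuspForm (Gamma0 M) 2) (hw : w ∈ newKer hqM) :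
    (t : Module.End ℂ (CuspForm (Gamma0 M) 2)) w ∈ newKer hqM := by
  rw [mem_newKer] at hw ⊢
  set U : heckeAlgebra M 2 (∅ : Set ℕ) := heckeAlgebra.U hq hqM (Set.notMem_empty q) with hU
  have hUc : (U : Module.End ℂ (CuspForm (Gamma0 M) 2)) = heckeULin 2 hqM := rfl
  have hcomm : (U * U * t : heckeAlgebra M 2 (∅ : Set ℕ)) = t * (U * U) := mul_comm _ _
  have h1 := congrArg (fun s : heckeAlgebra M 2 (∅ : Set ℕ) =>
    (s : Module.End ℂ (CuspForm (Gamma0 M) 2)) w) hcomm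
  simp only [MulMemClass.coe_mul, Module.End.mul_apply, hUc] at h1
  rw [h1, hw]

/-- **Extraction lemma** (abstract form). -/
theorem exists_eigenform_of_maximal {q : ℕ} (hq : q.Prime) (hqM : q ∣ M) {p : ℕ}
    (good : ℕ → Prop) (a : ℕ → ℤ)
    (nn : Ideal (heckeAlgebra M 2 (∅ : Set ℕ))) [hnn : nn.IsMaximal]
    (hann : ∀ t : heckeAlgebra M 2 (∅ : Set ℕ),
      (∀ w ∈ newKer hqM, (t : Module.End ℂ (CuspForm (Gamma0 M) 2)) w = 0) → t ∈ nn)
    (hp : (p : heckeAlgebra M 2 (∅ : Set ℕ)) ∈ nn)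
    (hl : ∀ (ℓ : ℕ) (hℓ : ℓ.Prime) (hℓM : ¬ ℓ ∣ M), good ℓ → ℓ ≠ p →
      heckeAlgebra.T hℓ hℓM (Set.notMem_empty ℓ) - ((a ℓ : ℤ) : heckeAlgebra M 2 (∅ : Set ℕ))
        ∈ nn) :
    ∃ (g : CuspForm (Gamma0 M) 2) (𝔪' : Ideal (integralClosure ℤ ℂ)),
      g.IsNormalizedEigenform ∧ 𝔪'.IsMaximal ∧ (p : integralClosure ℤ ℂ) ∈ 𝔪' ∧
      (∀ ℓ : ℕ, ℓ.Prime → good ℓ → ¬ ℓ ∣ M → ℓ ≠ p →
        ∃ c : integralClosure ℤ ℂ, (c : ℂ) = ModularFormClass.qCoeff g ℓ ∧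
          c - ((a ℓ : ℤ) : integralClosure ℤ ℂ) ∈ 𝔪') ∧
      g.IsNewAt q := by
  classical
  haveI : Module.Finite ℂ (CuspForm (Gamma0 M) 2) := Fermat.Agent.S21.Reduction.cuspForm_finite M
  haveI : Module.Finite ℤ (heckeAlgebra M 2 (∅ : Set ℕ)) := Fermat.Agent.S22.result M 2 ∅
  haveI : Algebra.IsIntegral ℤ (heckeAlgebra M 2 (∅ : Set ℕ)) := Algebra.IsIntegral.of_finite ℤ _
  -- the tautological representation, restricted to `V'`
  let ρ : heckeAlgebra M 2 (∅ : Set ℕ) →+* Module.End ℂ (CuspForm (Gamma0 M) 2) :=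
    (heckeAlgebra M 2 (∅ : Set ℕ)).val.toRingHom
  have hρ : ∀ (t : heckeAlgebra M 2 (∅ : Set ℕ)) (w : CuspForm (Gamma0 M) 2),
      ρ t w = (t : Module.End ℂ (CuspForm (Gamma0 M) 2)) w := fun _ _ => rfl
  obtain ⟨ρ', hρ'⟩ := Fermat.Agent.S49.exists_restrict_ringHom ρ (newKer hqM)
    (fun t w hw => heckeAlgebra_apply_mem_newKer hq hqM t w hw)
  have hker' : RingHom.ker ρ' ≤ nn := by
    intro t ht
    apply hann t
    intro w hw
    have h0 : ρ' t ⟨w, hw⟩ = 0 := by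
      rw [RingHom.mem_ker.mp ht, LinearMap.zero_apply]
    have := hρ' t ⟨w, hw⟩
    rw [h0] at this
    rw [← hρ t w]
    exact this.symm
  obtain ⟨w', χ, hw'0, hχ, hkerχ⟩ := Fermat.Agent.S49.exists_eigenvector_ker_le ρ' nn hker'
  obtain ⟨χ', m', hm'max, hχ', hcomap⟩ := Fermat.Agent.S49.exists_maximal_over χ nn hkerχ
  -- the eigenvector in `S₂`
  set w : CuspForm (Gamma0 M) 2 := (w' : CuspForm (Gamma0 M) 2) with hwdef
  have hw0 : w ≠ 0 := fun h => hw'0 (Subtype.ext h)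
  have hwV : w ∈ newKer hqM := w'.2
  have hweig : ∀ t : heckeAlgebra M 2 (∅ : Set ℕ),
      (t : Module.End ℂ (CuspForm (Gamma0 M) 2)) w = χ t • w := by
    intro t
    have h1 := hρ' t w'
    rw [hχ t] at h1
    rw [← hρ t w, ← h1]
    rfl
  -- eigenvalues indexed by primes
  let lam : ℕ → ℂ := fun ℓ =>
    if hℓ : ℓ.Prime then
      (if hℓM : ℓ ∣ M then χ (heckeAlgebra.U hℓ hℓM (Set.notMem_empty ℓ))
        else χ (heckeAlgebra.T hℓ hℓM (Set.notMem_empty ℓ)))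
    else 0
  have hT : ∀ (ℓ : ℕ) (hℓ : ℓ.Prime) (hℓM : ¬ ℓ ∣ M), heckeTLin 2 hℓ hℓM w = lam ℓ • w := by
    intro ℓ hℓ hℓM
    have := hweig (heckeAlgebra.T hℓ hℓM (Set.notMem_empty ℓ))
    simp only [lam, dif_pos hℓ, dif_neg hℓM]
    rw [← this]; rfl
  have hU : ∀ (r : ℕ) (_ : r.Prime) (hrM : r ∣ M), heckeULin 2 hrM w = lam r • w := by
    intro r hr hrM
    have := hweig (heckeAlgebra.U hr hrM (Set.notMem_empty r))
    simp only [lam, dif_pos hr, dif_pos hrM]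
    rw [← this]; rfl
  obtain ⟨g, hg, hgl⟩ :=
    Fermat.Agent.S49.exists_normalizedEigenform_of_eigenvector w hw0 lam hT hU
  refine ⟨g, m', hg, hm'max, ?_, ?_, ?_⟩
  · -- `p ∈ 𝔪'`
    have h3 := hp
    rw [← hcomap, Ideal.mem_comap, map_natCast] at h3
    exact h3
  · -- congruences at good primes
    intro ℓ hℓ hgood hℓM hℓp
    refine ⟨χ' (heckeAlgebra.T hℓ hℓM (Set.notMem_empty ℓ)), ?_, ?_⟩
    · rw [hχ', hgl ℓ hℓ]
      simp only [lam, dif_pos hℓ, dif_neg hℓM]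
    · have hmem := hl ℓ hℓ hℓM hgood hℓp
      rw [← hcomap, Ideal.mem_comap, map_sub, map_intCast] at hmem
      exact hmem
  · -- `a_q(g) ^ 2 = 1`
    show ModularFormClass.qCoeff g q ^ 2 = 1
    rw [hgl q hq]
    have h1 := (mem_newKer hqM w).1 hwV
    rw [hU q hq hqM, map_smul, hU q hq hqM, smul_smul] at h1
    have h2 : (lam q * lam q - 1) • w = 0 := by rw [sub_smul, h1, one_smul, sub_self]
    rcases smul_eq_zero.1 h2 with h | h
    · rw [pow_two]; exact sub_eq_zero.1 h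
    · exact absurd h hw0

/-- **Extraction lemma in the shape of the frozen S41 conclusion.** -/
theorem exists_newAt_congruentEigenform {W : WeierstrassCurve ℤ} {p N q' : ℕ} [NeZero (N * q')]
    (hq' : q'.Prime)
    (nn : Ideal (heckeAlgebra (N * q') 2 (∅ : Set ℕ))) [nn.IsMaximal]
    (hann : ∀ t : heckeAlgebra (N * q') 2 (∅ : Set ℕ),
      (∀ w ∈ newKer (M := N * q') (dvd_mul_left q' N),
        (t : Module.End ℂ (CuspForm (Gamma0 (N * q')) 2)) w = 0) → t ∈ nn)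
    (hp : (p : heckeAlgebra (N * q') 2 (∅ : Set ℕ)) ∈ nn)
    (hl : ∀ (ℓ : ℕ) (hℓ : ℓ.Prime) (hℓM : ¬ ℓ ∣ N * q'), W.IsGoodPrimeFor ℓ → ℓ ≠ p →
      heckeAlgebra.T hℓ hℓM (Set.notMem_empty ℓ) -
        ((W.apOfModel ℓ : ℤ) : heckeAlgebra (N * q') 2 (∅ : Set ℕ)) ∈ nn) :
    ∃ (g : CuspForm (CongruenceSubgroup.Gamma0 (N * q')) 2) (𝔪' : Ideal (integralClosure ℤ ℂ)),
      g.IsNormalizedEigenform ∧ 𝔪'.IsMaximal ∧ (p : integralClosure ℤ ℂ) ∈ 𝔪' ∧
      (∀ ℓ : ℕ, ℓ.Prime → W.IsGoodPrimeFor ℓ → ¬ ℓ ∣ N * q' → ℓ ≠ p →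
        ∃ a : integralClosure ℤ ℂ, (a : ℂ) = ModularFormClass.qCoeff g ℓ ∧
          a - ((W.apOfModel ℓ : ℤ) : integralClosure ℤ ℂ) ∈ 𝔪') ∧
      g.IsNewAt q' :=
  exists_eigenform_of_maximal hq' (dvd_mul_left q' N) W.IsGoodPrimeFor W.apOfModel nn hann hp hl

end Fermat.Agent.S41.R4.Extraction
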