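/-
S41 volunteer leaf (R4): the BRIDGE of the S41 study (helper20 #2488 (2)), abstract part.

`Hk := MvPolynomial ℕ ℤ` is the abstract Hecke ring (`X ℓ` ↦ `T_ℓ` for `ℓ ∤ M`, `U_ℓ` for `ℓ ∣ M`),
`heckeEval M : Hk →ₐ[ℤ] heckeAlgebra M 2 ∅` is onto.  If `X` is any `Hk`-module such that
* every `r : Hk` whose image kills `ker (U_q ^ 2 - 1) ≤ S₂(Γ₀(M))` kills `X`, and
* `X ≠ I • X` for the ideal `I` generated by `p` and the `X ℓ - a ℓ` (good `ℓ ∤ M`, `ℓ ≠ p`),
then the maximal ideal `nn` required by `Extraction.exists_eigenform_of_maximal` exists, hence the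
frozen conclusion of S41 holds.  (No Nakayama is needed: `1 ∈ Ann + I` would give `X = I • X`.)
-/
import Mathlib
import Fermat.Agent.S41.R4.Extraction

set_option autoImplicit false

namespace Fermat.Agent.S41.R4.Bridge

open CuspForm CongruenceSubgroup ModularFormClass Fermat.Agent.S41.R4.Extraction

/-- Abstract bridge: a module that is killed by `A` and is not `I`-divisible gives a maximal ideal
above `A` and the image of `I`. -/
theorem exists_maximal_of_module {R TT : Type*} [CommRing R] [CommRing TT] (φ : R →+* TT)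
    (hφ : Function.Surjective φ) (A : Ideal TT) {X : Type*} [AddCommGroup X] [Module R X]
    (hA : ∀ r : R, φ r ∈ A → ∀ x : X, r • x = 0) (I : Ideal R)
    (hX : ∃ x : X, x ∉ I • (⊤ : Submodule R X)) :
    ∃ nn : Ideal TT, nn.IsMaximal ∧ A ≤ nn ∧ I.map φ ≤ nn := by
  have hne : A ⊔ I.map φ ≠ ⊤ := by
    intro htop
    obtain ⟨x, hx⟩ := hX
    apply hx
    have h1 : (1 : TT) ∈ A ⊔ I.map φ := by rw [htop]; trivial
    obtain ⟨α, hα, β, hβ, hαβ⟩ := Submodule.mem_sup.1 h1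
    obtain ⟨i, hi, rfl⟩ := (Ideal.mem_map_iff_of_surjective φ hφ).1 hβ
    obtain ⟨r, rfl⟩ := hφ α
    have he : φ (1 - r - i) ∈ A := by
      have : φ (1 - r - i) = 0 := by
        rw [map_sub, map_sub, map_one, ← hαβ]; ring
      rw [this]; exact A.zero_mem
    have hx1 : x = i • x := by
      have h2 := hA (1 - r - i) he x
      have h3 := hA r hα x
      rw [sub_smul, sub_smul, one_smul, h3, sub_zero, sub_eq_zero] at h2
      exact h2
    rw [hx1]
    exact Submodule.smul_mem_smul hi Submodule.mem_top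
  obtain ⟨nn, hmax, hle⟩ := Ideal.exists_le_maximal _ hne
  exact ⟨nn, hmax, le_sup_left.trans hle, le_sup_right.trans hle⟩

variable (M : ℕ) [NeZero M]

/-- The Hecke operator attached to the symbol `ℓ`. -/
noncomputable def heckeSymbol (ℓ : ℕ) : heckeAlgebra M 2 (∅ : Set ℕ) := by
  classical
  exact if hℓ : ℓ.Prime then
      (if hℓM : ℓ ∣ M then heckeAlgebra.U hℓ hℓM (Set.notMem_empty ℓ)
        else heckeAlgebra.T hℓ hℓM (Set.notMem_empty ℓ))
    else 0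

theorem heckeSymbol_of_dvd {ℓ : ℕ} (hℓ : ℓ.Prime) (hℓM : ℓ ∣ M) :
    heckeSymbol M ℓ = heckeAlgebra.U hℓ hℓM (Set.notMem_empty ℓ) := by
  simp only [heckeSymbol, dif_pos hℓ, dif_pos hℓM]

theorem heckeSymbol_of_not_dvd {ℓ : ℕ} (hℓ : ℓ.Prime) (hℓM : ¬ ℓ ∣ M) :
    heckeSymbol M ℓ = heckeAlgebra.T hℓ hℓM (Set.notMem_empty ℓ) := by
  simp only [heckeSymbol, dif_pos hℓ, dif_neg hℓM]

/-- Evaluation of the abstract Hecke ring in the Hecke algebra. -/
noncomputable def heckeEval : MvPolynomial ℕ ℤ →ₐ[ℤ] heckeAlgebra M 2 (∅ : Set ℕ) :=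
  MvPolynomial.aeval (heckeSymbol M)

theorem heckeEval_X (ℓ : ℕ) : heckeEval M (MvPolynomial.X ℓ) = heckeSymbol M ℓ :=
  MvPolynomial.aeval_X _ _

theorem heckeEval_surjective : Function.Surjective (heckeEval M) := by
  rw [← AlgHom.range_eq_top, heckeEval, MvPolynomial.aeval_range, eq_top_iff]
  have htop : Algebra.adjoin ℤ (((↑) : heckeAlgebra M 2 (∅ : Set ℕ) →
      Module.End ℂ (CuspForm (Gamma0 M) 2)) ⁻¹' heckeGenerators M 2 (∅ : Set ℕ)) = ⊤ :=
    Algebra.adjoin_adjoin_coe_preimage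
  rw [← htop]
  apply Algebra.adjoin_mono
  rintro ⟨t, ht⟩ (⟨ℓ, hℓ, hℓM, -, rfl⟩ | ⟨r, hrM, hr, -, rfl⟩)
  · exact ⟨ℓ, by rw [heckeSymbol_of_not_dvd M hℓ hℓM]; rfl⟩
  · exact ⟨r, by rw [heckeSymbol_of_dvd M hr hrM]; rfl⟩

variable {M}

/-- The annihilator of `ker (U_q ^ 2 - 1)` in the Hecke algebra. -/
noncomputable def annNewKer {q : ℕ} (hqM : q ∣ M) : Ideal (heckeAlgebra M 2 (∅ : Set ℕ)) where
  carrier := {t | ∀ w ∈ newKer hqM, (t : Module.End ℂ (CuspForm (Gamma0 M) 2)) w = 0}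
  add_mem' := fun {s t} hs ht w hw => by
    rw [AddMemClass.coe_add, LinearMap.add_apply, hs w hw, ht w hw, add_zero]
  zero_mem' := fun w _ => by rw [ZeroMemClass.coe_zero, LinearMap.zero_apply]
  smul_mem' := fun c t ht w hw => by
    rw [smul_eq_mul, MulMemClass.coe_mul, Module.End.mul_apply, ht w hw, map_zero]

theorem mem_annNewKer {q : ℕ} (hqM : q ∣ M) (t : heckeAlgebra M 2 (∅ : Set ℕ)) :
    t ∈ annNewKer hqM ↔
      ∀ w ∈ newKer hqM, (t : Module.End ℂ (CuspForm (Gamma0 M) 2)) w = 0 := Iff.rfl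

/-- The congruence ideal of the abstract Hecke ring. -/
noncomputable def congrIdeal (M p : ℕ) (good : ℕ → Prop) (a : ℕ → ℤ) :
    Ideal (MvPolynomial ℕ ℤ) :=
  Ideal.span ({MvPolynomial.C (p : ℤ)} ∪
    {P | ∃ ℓ : ℕ, ℓ.Prime ∧ ¬ ℓ ∣ M ∧ good ℓ ∧ ℓ ≠ p ∧
      P = MvPolynomial.X ℓ - MvPolynomial.C (a ℓ)})

/-- **Bridge.**  An `MvPolynomial ℕ ℤ`-module `X` which is killed by everything that kills
`ker (U_q ^ 2 - 1)` and which is not divisible by the congruence ideal yields the frozen S41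
conclusion. -/
theorem exists_eigenform_of_module {q : ℕ} (hq : q.Prime) (hqM : q ∣ M) {p : ℕ}
    (good : ℕ → Prop) (a : ℕ → ℤ) {X : Type*} [AddCommGroup X] [Module (MvPolynomial ℕ ℤ) X]
    (hann : ∀ r : MvPolynomial ℕ ℤ, heckeEval M r ∈ annNewKer hqM → ∀ x : X, r • x = 0)
    (hX : ∃ x : X, x ∉ congrIdeal M p good a • (⊤ : Submodule (MvPolynomial ℕ ℤ) X)) :
    ∃ (g : CuspForm (Gamma0 M) 2) (𝔪' : Ideal (integralClosure ℤ ℂ)),
      g.IsNormalizedEigenform ∧ 𝔪'.IsMaximal ∧ (p : integralClosure ℤ ℂ) ∈ 𝔪' ∧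
      (∀ ℓ : ℕ, ℓ.Prime → good ℓ → ¬ ℓ ∣ M → ℓ ≠ p →
        ∃ c : integralClosure ℤ ℂ, (c : ℂ) = ModularFormClass.qCoeff g ℓ ∧
          c - ((a ℓ : ℤ) : integralClosure ℤ ℂ) ∈ 𝔪') ∧
      g.IsNewAt q := by
  obtain ⟨nn, hmax, hA, hI⟩ := exists_maximal_of_module (heckeEval M).toRingHom
    (heckeEval_surjective M) (annNewKer hqM) hann (congrIdeal M p good a) hX
  have := hmax
  refine exists_eigenform_of_maximal hq hqM good a nn (fun t ht => hA ht) ?_ ?_
  · -- `p ∈ nn`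
    have h1 : MvPolynomial.C (p : ℤ) ∈ congrIdeal M p good a :=
      Ideal.subset_span (Or.inl rfl)
    have h2 := hI (Ideal.mem_map_of_mem _ h1)
    have h3 : (heckeEval M).toRingHom (MvPolynomial.C (p : ℤ))
        = (p : heckeAlgebra M 2 (∅ : Set ℕ)) := by
      show heckeEval M (MvPolynomial.C (p : ℤ)) = _
      rw [heckeEval, MvPolynomial.aeval_C]
      simp
    rwa [h3] at h2
  · intro ℓ hℓ hℓM hgood hℓp
    have h1 : MvPolynomial.X ℓ - MvPolynomial.C (a ℓ) ∈ congrIdeal M p good a :=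
      Ideal.subset_span (Or.inr ⟨ℓ, hℓ, hℓM, hgood, hℓp, rfl⟩)
    have h2 := hI (Ideal.mem_map_of_mem _ h1)
    have h3 : (heckeEval M).toRingHom (MvPolynomial.X ℓ - MvPolynomial.C (a ℓ))
        = heckeAlgebra.T hℓ hℓM (Set.notMem_empty ℓ)
          - ((a ℓ : ℤ) : heckeAlgebra M 2 (∅ : Set ℕ)) := by
      show heckeEval M (MvPolynomial.X ℓ - MvPolynomial.C (a ℓ)) = _
      rw [map_sub, heckeEval_X, heckeSymbol_of_not_dvd M hℓ hℓM, heckeEval, MvPolynomial.aeval_C]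
      simp
    rwa [h3] at h2

end Fermat.Agent.S41.R4.Bridge
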